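import Mathlib.AlgebraicGeometry.EllipticCurve.Affine.Point
import Mathlib.AlgebraicGeometry.EllipticCurve.DivisionPolynomial.Degree
import Mathlib.FieldTheory.IsAlgClosed.Basic
import Fermat.Agent.S05.XIdent

/-!
# S51, slice T3 (helper13): 3-torsion points of a Weierstrass curve

* `h13s51_three_root` (T3b): the `x`-coordinate of a nonzero `3`-torsion point is a root of the
  `3`-division polynomial `3x⁴ + b₂x³ + 3b₄x² + 3b₆x + b₈`;
* `h13s51_exists_three` (T3a): over an algebraically closed field of characteristic `0` a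
  Weierstrass curve with `Δ ≠ 0` has a nonzero `3`-torsion point;
* `h13s51_three_of_root`: converse of T3b on a curve with `Δ ≠ 0` (char ≠ 2).
-/

set_option autoImplicit false

namespace Fermat.Agent.H3S51

open WeierstrassCurve WeierstrassCurve.Affine

section General

variable {K : Type*} [Field K] [DecidableEq K] (E : WeierstrassCurve.Affine K)

/-- `3 • P = P + P + P`. -/
theorem h13s51_three_nsmul (P : E.Point) : (3 : ℕ) • P = P + P + P := by
  rw [show (3 : ℕ) = 2 + 1 from rfl, add_nsmul, two_nsmul, one_nsmul]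

/-- (T3b) The `x`-coordinate of a nonzero `3`-torsion point is a root of `Ψ₃`. -/
theorem h13s51_three_root {x y : K} (h : E.Nonsingular x y)
    (h3 : (3 : ℕ) • Point.some x y h = 0) :
    3 * x ^ 4 + E.b₂ * x ^ 3 + 3 * E.b₄ * x ^ 2 + 3 * E.b₆ * x + E.b₈ = 0 := by
  rw [h13s51_three_nsmul] at h3
  have hy : y ≠ E.negY x y := by
    intro hy
    rw [Point.add_self_of_Y_eq hy, zero_add] at h3
    exact Point.some_ne_zero h h3
  obtain ⟨xd, yd, hd, h2, -, hD⟩ := Fermat.Agent.H29.h29_exists_double E h hy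
  rw [h2] at h3
  have h4 : Point.some xd yd hd = -Point.some x y h := eq_neg_of_add_eq_zero_left h3
  rw [Point.neg_some, Point.some.injEq] at h4
  rw [h4.1] at hD
  linear_combination hD

omit [DecidableEq K] in
/-- If `Ψ₂Sq` and `Ψ₃` have a common root then `Δ = 0` (characteristic `≠ 2`). -/
theorem h13s51_Δ_eq_zero_of_common_root (h2 : (2 : K) ≠ 0) {x : K}
    (hf : 4 * x ^ 3 + E.b₂ * x ^ 2 + 2 * E.b₄ * x + E.b₆ = 0)
    (h3 : 3 * x ^ 4 + E.b₂ * x ^ 3 + 3 * E.b₄ * x ^ 2 + 3 * E.b₆ * x + E.b₈ = 0) :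
    E.Δ = 0 := by
  have hb := E.b_relation
  have hg2 : (6 * x ^ 2 + E.b₂ * x + E.b₄) ^ 2 = 0 := by
    linear_combination (8 * x + E.b₂ + 4 * x) * hf - 4 * h3 + hb
  have hg : 6 * x ^ 2 + E.b₂ * x + E.b₄ = 0 := by
    simpa using hg2
  have h4 : (4 : K) * E.Δ = 0 := by
    rw [WeierstrassCurve.Δ]
    linear_combination
      (30 * E.b₂ * E.b₄ - 6 * E.b₂ ^ 2 * x - E.b₂ ^ 3 + 144 * E.b₄ * x - 108 * E.b₆) * hf +
      (-28 * E.b₂ * E.b₄ * x + 6 * E.b₂ * E.b₆ + E.b₂ ^ 2 * E.b₄ + 4 * E.b₂ ^ 2 * x ^ 2 +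
        E.b₂ ^ 3 * x - 96 * E.b₄ * x ^ 2 - 32 * E.b₄ ^ 2 + 72 * E.b₆ * x) * hg -
      E.b₂ ^ 2 * hb
  have h4' : (4 : K) ≠ 0 := by
    have : (4 : K) = 2 * 2 := by norm_num
    rw [this]
    exact mul_ne_zero h2 h2
  exact (mul_eq_zero.mp h4).resolve_left h4'

/-- Converse of T3b: on a curve with `Δ ≠ 0` (characteristic `≠ 2`) a point whose `x`-coordinate
is a root of `Ψ₃` is `3`-torsion. -/
theorem h13s51_three_of_root (h2 : (2 : K) ≠ 0) (hΔ : E.Δ ≠ 0) {x y : K}
    (h : E.Nonsingular x y)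
    (h3 : 3 * x ^ 4 + E.b₂ * x ^ 3 + 3 * E.b₄ * x ^ 2 + 3 * E.b₆ * x + E.b₈ = 0) :
    (3 : ℕ) • Point.some x y h = 0 := by
  have hsq := Fermat.Agent.H29.h29_sq_two_y E h.1
  have hf : 4 * x ^ 3 + E.b₂ * x ^ 2 + 2 * E.b₄ * x + E.b₆ ≠ 0 := fun hf =>
    hΔ (h13s51_Δ_eq_zero_of_common_root E h2 hf h3)
  have hy : y ≠ E.negY x y := by
    intro hy
    apply hf
    rw [← hsq, ← Fermat.Agent.H29.h29_sub_negY, sub_eq_zero.mpr hy]
    ring
  obtain ⟨xd, yd, hd, h2P, -, hD⟩ := Fermat.Agent.H29.h29_exists_double E h hy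
  have hx : xd = x := by
    apply mul_right_cancel₀ hf
    linear_combination hD - h3
  rw [h13s51_three_nsmul, h2P]
  rcases Point.X_eq_iff.mp hx with hP | hP
  · exfalso
    rw [hP] at h2P
    have : Point.some x y h = 0 := by
      have h5 := h2P
      rw [add_eq_right] at h5
      exact h5
    exact Point.some_ne_zero h this
  · rw [hP, neg_add_cancel]

end General

section AlgClosed

/-- Over an algebraically closed field every `x` is the `x`-coordinate of a point of the curve. -/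
theorem h13s51_exists_y {K : Type*} [Field K] [IsAlgClosed K] (E : WeierstrassCurve.Affine K)
    (x : K) : ∃ y : K, E.Equation x y := by
  obtain ⟨y, hy⟩ := IsAlgClosed.exists_root
    (Polynomial.X ^ 2 + Polynomial.C (E.a₁ * x + E.a₃) * Polynomial.X -
      Polynomial.C (x ^ 3 + E.a₂ * x ^ 2 + E.a₄ * x + E.a₆) : Polynomial K)
    (by
      rw [Polynomial.degree_sub_C (by
        rw [Polynomial.degree_add_eq_left_of_degree_lt]
        · rw [Polynomial.degree_X_pow]; norm_num
        · rw [Polynomial.degree_X_pow]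
          exact lt_of_le_of_lt (Polynomial.degree_C_mul_X_le _) (by norm_num))]
      rw [Polynomial.degree_add_eq_left_of_degree_lt]
      · rw [Polynomial.degree_X_pow]; norm_num
      · rw [Polynomial.degree_X_pow]
        exact lt_of_le_of_lt (Polynomial.degree_C_mul_X_le _) (by norm_num))
  refine ⟨y, (Affine.equation_iff x y).mpr ?_⟩
  simp only [Polynomial.IsRoot.def, Polynomial.eval_sub, Polynomial.eval_add,
    Polynomial.eval_pow, Polynomial.eval_X, Polynomial.eval_mul, Polynomial.eval_C] at hy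
  linear_combination hy

variable {K : Type*} [Field K] [DecidableEq K] [IsAlgClosed K] [CharZero K]
  (E : WeierstrassCurve.Affine K)

/-- (T3a) Existence of a nonzero `3`-torsion point. -/
theorem h13s51_exists_three (hΔ : E.Δ ≠ 0) : ∃ P : E.Point, P ≠ 0 ∧ (3 : ℕ) • P = 0 := by
  have h3K : (3 : K) ≠ 0 := by norm_num
  have h2K : (2 : K) ≠ 0 := by norm_num
  obtain ⟨x, hx⟩ := IsAlgClosed.exists_root E.Ψ₃ (by
    intro hdeg
    have := E.natDegree_Ψ₃ h3K
    rw [Polynomial.natDegree, hdeg] at this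
    simp at this)
  have hx' : 3 * x ^ 4 + E.b₂ * x ^ 3 + 3 * E.b₄ * x ^ 2 + 3 * E.b₆ * x + E.b₈ = 0 := by
    have := hx
    simp only [Polynomial.IsRoot.def, WeierstrassCurve.Ψ₃, Polynomial.eval_add,
      Polynomial.eval_mul, Polynomial.eval_pow, Polynomial.eval_X, Polynomial.eval_C,
      Polynomial.eval_ofNat] at this
    linear_combination this
  obtain ⟨y, hy⟩ := h13s51_exists_y E x
  have hns : E.Nonsingular x y := (E.equation_iff_nonsingular_of_Δ_ne_zero hΔ).mp hy
  exact ⟨Point.some x y hns, Point.some_ne_zero hns, h13s51_three_of_root E h2K hΔ hns hx'⟩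

end AlgClosed

end Fermat.Agent.H3S51
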