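/-
S51 slice T5 (helper29): 5-torsion of a Weierstrass curve over an algebraically closed field of
characteristic zero, via explicit `x`-coordinate algebra (no division-polynomial/`[n]P` theory).

Deliverables (shapes fixed by helper3):
* `h29s51_exists_five`  : `∃ P : E.Point, P ≠ 0 ∧ (5:ℕ) • P = 0`                     (needs `Δ ≠ 0`)
* `h29s51_five_data`    : a nonzero 5-torsion point `P = (x₁,y₁)` has `2P = (x₂,y₂)` affine with
                          `x₁ ≠ x₂` and the two duplication relations `x₂ M(x₁) = N(x₁)`,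
                          `x₁ M(x₂) = N(x₂)`
* `h29s51_five_poly`    : an explicit nonzero polynomial of degree `≤ 16` (in fact `preΨ' 5`,
                          of degree `12`) vanishing at the `x`-coordinate of every nonzero
                          5-torsion point.
-/
import Fermat.Agent.S05.XIdent
import Mathlib.AlgebraicGeometry.EllipticCurve.DivisionPolynomial.Degree
import Mathlib.FieldTheory.IsAlgClosed.Basic

set_option autoImplicit false

namespace Fermat.Agent.H3S51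

open WeierstrassCurve Polynomial Fermat.Agent.H29

/-! ### Pure algebra -/

section Algebra

variable {K : Type*} [Field K] (E : WeierstrassCurve.Affine K)

/-- `M = Ψ₂Sq`, the 2-division polynomial (squared), as a function. -/
def h29s51_M (x : K) : K := 4 * x ^ 3 + E.b₂ * x ^ 2 + 2 * E.b₄ * x + E.b₆

/-- `N = Φ₂`, the numerator of the duplication formula, as a function. -/
def h29s51_N (x : K) : K := x ^ 4 - E.b₄ * x ^ 2 - 2 * E.b₆ * x - E.b₈

/-- `Ψ₃` as a function. -/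
def h29s51_P3 (x : K) : K := 3 * x ^ 4 + E.b₂ * x ^ 3 + 3 * E.b₄ * x ^ 2 + 3 * E.b₆ * x + E.b₈

/-- `preΨ₄` as a function. -/
def h29s51_P4 (x : K) : K :=
  2 * x ^ 6 + E.b₂ * x ^ 5 + 5 * E.b₄ * x ^ 4 + 10 * E.b₆ * x ^ 3 + 10 * E.b₈ * x ^ 2 +
    (E.b₂ * E.b₈ - E.b₄ * E.b₆) * x + (E.b₄ * E.b₈ - E.b₆ ^ 2)

/-- `preΨ₅ = preΨ₄ Ψ₂Sq² - Ψ₃³` as a function. -/
def h29s51_G (x : K) : K := h29s51_P4 E x * h29s51_M E x ^ 2 - h29s51_P3 E x ^ 3

theorem h29s51_P3_eq (x : K) : h29s51_P3 E x = x * h29s51_M E x - h29s51_N E x := by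
  simp only [h29s51_P3, h29s51_M, h29s51_N]
  ring

/-- (I2) -/
theorem h29s51_I2 (x : K) :
    4 * h29s51_N E x ^ 3 + E.b₂ * h29s51_N E x ^ 2 * h29s51_M E x
      + 2 * E.b₄ * h29s51_N E x * h29s51_M E x ^ 2 + E.b₆ * h29s51_M E x ^ 3
      = h29s51_P4 E x ^ 2 := by
  have hb := E.b_relation
  simp only [h29s51_P4, h29s51_M, h29s51_N]
  grind

/-- (I3) -/
theorem h29s51_I3 (x : K) :
    (h29s51_N E x ^ 4 - E.b₄ * h29s51_N E x ^ 2 * h29s51_M E x ^ 2
        - 2 * E.b₆ * h29s51_N E x * h29s51_M E x ^ 3 - E.b₈ * h29s51_M E x ^ 4)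
      - x * h29s51_P4 E x ^ 2 * h29s51_M E x
      = - h29s51_P3 E x * h29s51_G E x := by
  have hb := E.b_relation
  simp only [h29s51_G, h29s51_P3, h29s51_P4, h29s51_M, h29s51_N]
  grind

/-- If `x₂ M(x) = N(x)` then `M(x₂) M(x)³ = preΨ₄(x)²`. -/
theorem h29s51_M_dbl {x x₂ : K} (h : x₂ * h29s51_M E x = h29s51_N E x) :
    h29s51_M E x₂ * h29s51_M E x ^ 3 = h29s51_P4 E x ^ 2 := by
  rw [← h29s51_I2, ← h]
  simp only [h29s51_M]
  ring

/-- If `x₂ M(x) = N(x)` then `N(x₂) M(x)⁴ = Φ₂(N, M)` (homogenised). -/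
theorem h29s51_N_dbl {x x₂ : K} (h : x₂ * h29s51_M E x = h29s51_N E x) :
    h29s51_N E x₂ * h29s51_M E x ^ 4 =
      h29s51_N E x ^ 4 - E.b₄ * h29s51_N E x ^ 2 * h29s51_M E x ^ 2
        - 2 * E.b₆ * h29s51_N E x * h29s51_M E x ^ 3 - E.b₈ * h29s51_M E x ^ 4 := by
  rw [← h]
  simp only [h29s51_N]
  ring

/-- The key relation: if `x₂ M(x) = N(x)` then
`(N(x₂) - x M(x₂)) M(x)⁴ = -Ψ₃(x) preΨ₅(x)`. -/
theorem h29s51_key {x x₂ : K} (h : x₂ * h29s51_M E x = h29s51_N E x) :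
    (h29s51_N E x₂ - x * h29s51_M E x₂) * h29s51_M E x ^ 4 =
      - h29s51_P3 E x * h29s51_G E x := by
  rw [← h29s51_I3, ← h29s51_M_dbl E h, ← h29s51_N_dbl E h]
  ring

/-- `16 Ψ₃ = 2 M M'' - M'²`. -/
theorem h29s51_sixteen_P3 (x : K) :
    16 * h29s51_P3 E x = 2 * h29s51_M E x * (24 * x + 2 * E.b₂)
      - (12 * x ^ 2 + 2 * E.b₂ * x + 2 * E.b₄) ^ 2 := by
  have hb := E.b_relation
  simp only [h29s51_P3, h29s51_M]
  linear_combination 4 * hb

end Algebra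

/-! ### Points -/

section Points

variable {K : Type*} [Field K] [DecidableEq K] (E : WeierstrassCurve.Affine K)

open WeierstrassCurve.Affine

/-- `(2y + a₁x + a₃)² = M(x)` on the curve. -/
theorem h29s51_sq_om {x y : K} (h : E.Equation x y) :
    (2 * y + E.a₁ * x + E.a₃) ^ 2 = h29s51_M E x :=
  h29_sq_two_y E h

theorem h29s51_Y_eq_negY_iff {x y : K} (h : E.Equation x y) :
    y = E.negY x y ↔ h29s51_M E x = 0 := by
  rw [← h29s51_sq_om E h, pow_eq_zero_iff two_ne_zero, ← h29_sub_negY, sub_eq_zero]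

theorem h29s51_two_nsmul_eq_zero_iff {x y : K} (h : E.Nonsingular x y) :
    (2 : ℕ) • Point.some x y h = 0 ↔ h29s51_M E x = 0 := by
  rw [← h29s51_Y_eq_negY_iff E h.1, two_nsmul]
  constructor
  · intro h0
    by_contra hy
    rw [Point.add_self_of_Y_ne hy] at h0
    exact Point.some_ne_zero _ h0
  · intro hy
    exact Point.add_self_of_Y_eq hy

theorem h29s51_two_nsmul {x y : K} (h : E.Nonsingular x y) (hM : h29s51_M E x ≠ 0) :
    ∃ (xd yd : K) (hd : E.Nonsingular xd yd),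
      (2 : ℕ) • Point.some x y h = Point.some xd yd hd ∧
      xd * h29s51_M E x = h29s51_N E x := by
  have hy : y ≠ E.negY x y := fun hy => hM ((h29s51_Y_eq_negY_iff E h.1).mp hy)
  obtain ⟨xd, yd, hd, hadd, -, hrel⟩ := h29_exists_double E h hy
  exact ⟨xd, yd, hd, by rw [two_nsmul, hadd], hrel⟩

omit [DecidableEq K] in
/-- two affine points with the same `x`-coordinate are equal or opposite -/
theorem h29s51_eq_or_eq_neg {x y₁ y₂ : K} (h₁ : E.Nonsingular x y₁) (h₂ : E.Nonsingular x y₂) :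
    Point.some x y₁ h₁ = Point.some x y₂ h₂ ∨ Point.some x y₁ h₁ = -Point.some x y₂ h₂ := by
  rcases Y_eq_of_X_eq h₁.1 h₂.1 rfl with hy | hy
  · left
    subst hy
    rfl
  · right
    subst hy
    rw [Point.neg_some]

/-- Full data of a nonzero 5-torsion point. -/
theorem h29s51_five_data' {x₁ y₁ : K} (h₁ : E.Nonsingular x₁ y₁)
    (h5 : (5 : ℕ) • Point.some x₁ y₁ h₁ = 0) :
    ∃ (x₂ y₂ : K) (h₂ : E.Nonsingular x₂ y₂),
      (2 : ℕ) • Point.some x₁ y₁ h₁ = Point.some x₂ y₂ h₂ ∧ x₁ ≠ x₂ ∧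
      h29s51_M E x₁ ≠ 0 ∧ h29s51_M E x₂ ≠ 0 ∧
      x₂ * h29s51_M E x₁ = h29s51_N E x₁ ∧ x₁ * h29s51_M E x₂ = h29s51_N E x₂ := by
  have hP0 : Point.some x₁ y₁ h₁ ≠ 0 := Point.some_ne_zero _
  have h2P : (2 : ℕ) • Point.some x₁ y₁ h₁ ≠ 0 := by
    intro h
    apply hP0
    have e : Point.some x₁ y₁ h₁ =
        (5 : ℕ) • Point.some x₁ y₁ h₁ - (2 : ℕ) • ((2 : ℕ) • Point.some x₁ y₁ h₁) := by abel
    rw [e, h5, h, smul_zero, sub_zero]
  have hM₁ : h29s51_M E x₁ ≠ 0 := fun h => h2P ((h29s51_two_nsmul_eq_zero_iff E h₁).mpr h)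
  obtain ⟨x₂, y₂, h₂, h2, rel₁⟩ := h29s51_two_nsmul E h₁ hM₁
  have h4P : (2 : ℕ) • Point.some x₂ y₂ h₂ ≠ 0 := by
    intro h
    apply hP0
    rw [← h2] at h
    have e : Point.some x₁ y₁ h₁ =
        (5 : ℕ) • Point.some x₁ y₁ h₁ - (2 : ℕ) • ((2 : ℕ) • Point.some x₁ y₁ h₁) := by abel
    rw [e, h5, h, sub_zero]
  have hM₂ : h29s51_M E x₂ ≠ 0 := fun h => h4P ((h29s51_two_nsmul_eq_zero_iff E h₂).mpr h)
  obtain ⟨x₄, y₄, h₄, h4, rel₂⟩ := h29s51_two_nsmul E h₂ hM₂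
  have h4' : Point.some x₄ y₄ h₄ = -Point.some x₁ y₁ h₁ := by
    rw [← h4, ← h2]
    have e : (2 : ℕ) • ((2 : ℕ) • Point.some x₁ y₁ h₁) =
        (5 : ℕ) • Point.some x₁ y₁ h₁ - Point.some x₁ y₁ h₁ := by abel
    rw [e, h5, zero_sub]
  rw [Point.neg_some] at h4'
  have hx₄ : x₄ = x₁ := by
    have := h4'
    simp only [Point.some.injEq] at this
    exact this.1
  rw [hx₄] at rel₂
  refine ⟨x₂, y₂, h₂, h2, ?_, hM₁, hM₂, rel₁, rel₂⟩
  intro hx
  subst hx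
  rcases h29s51_eq_or_eq_neg E h₂ h₁ with h | h
  · -- 2P = P
    apply hP0
    rw [← h2] at h
    have e : Point.some x₁ y₁ h₁ =
        (2 : ℕ) • Point.some x₁ y₁ h₁ - Point.some x₁ y₁ h₁ := by abel
    rw [e, h, sub_self]
  · -- 2P = -P
    apply h2P
    rw [← h2] at h
    have e : (2 : ℕ) • Point.some x₁ y₁ h₁ =
        (5 : ℕ) • Point.some x₁ y₁ h₁
          - ((2 : ℕ) • Point.some x₁ y₁ h₁ + Point.some x₁ y₁ h₁) := by abel
    rw [e, h5, h, neg_add_cancel, sub_zero]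

/-- **(T5b)** -/
theorem h29s51_five_data {x₁ y₁ : K} (h₁ : E.Nonsingular x₁ y₁)
    (h5 : (5 : ℕ) • Point.some x₁ y₁ h₁ = 0) :
    ∃ (x₂ y₂ : K) (h₂ : E.Nonsingular x₂ y₂),
      (2 : ℕ) • Point.some x₁ y₁ h₁ = Point.some x₂ y₂ h₂ ∧ x₁ ≠ x₂ ∧
      x₂ * (4 * x₁ ^ 3 + E.b₂ * x₁ ^ 2 + 2 * E.b₄ * x₁ + E.b₆) =
        x₁ ^ 4 - E.b₄ * x₁ ^ 2 - 2 * E.b₆ * x₁ - E.b₈ ∧
      x₁ * (4 * x₂ ^ 3 + E.b₂ * x₂ ^ 2 + 2 * E.b₄ * x₂ + E.b₆) =
        x₂ ^ 4 - E.b₄ * x₂ ^ 2 - 2 * E.b₆ * x₂ - E.b₈ := by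
  obtain ⟨x₂, y₂, h₂, h2, hne, -, -, rel₁, rel₂⟩ := h29s51_five_data' E h₁ h5
  exact ⟨x₂, y₂, h₂, h2, hne, rel₁, rel₂⟩

/-- The `x`-coordinate of a nonzero 5-torsion point is a root of `preΨ₅`. -/
theorem h29s51_five_G {x y : K} (h : E.Nonsingular x y)
    (h5 : (5 : ℕ) • Point.some x y h = 0) : h29s51_G E x = 0 := by
  obtain ⟨x₂, y₂, h₂, -, hne, hM₁, -, rel₁, rel₂⟩ := h29s51_five_data' E h h5
  have hkey := h29s51_key E rel₁
  rw [← rel₂, sub_self, zero_mul] at hkey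
  have hP3 : h29s51_P3 E x ≠ 0 := by
    rw [h29s51_P3_eq, ← rel₁, ← sub_mul]
    exact mul_ne_zero (sub_ne_zero.mpr hne) hM₁
  have := hkey.symm
  rw [neg_mul, neg_eq_zero, mul_eq_zero] at this
  exact this.resolve_left hP3

end Points

/-! ### The polynomial `preΨ' 5` -/

section Poly

variable {K : Type*} [Field K] (E : WeierstrassCurve.Affine K)

theorem h29s51_preΨ'_five : E.preΨ' 5 = E.preΨ₄ * E.Ψ₂Sq ^ 2 - E.Ψ₃ ^ 3 := by
  have h := E.preΨ'_odd 0
  simpa using h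

theorem h29s51_eval_Ψ₂Sq (x : K) : E.Ψ₂Sq.eval x = h29s51_M E x := by
  simp [Ψ₂Sq, h29s51_M]

theorem h29s51_eval_Ψ₃ (x : K) : E.Ψ₃.eval x = h29s51_P3 E x := by
  simp [Ψ₃, h29s51_P3]

theorem h29s51_eval_preΨ₄ (x : K) : E.preΨ₄.eval x = h29s51_P4 E x := by
  simp [preΨ₄, h29s51_P4]

theorem h29s51_eval_preΨ'_five (x : K) : (E.preΨ' 5).eval x = h29s51_G E x := by
  rw [h29s51_preΨ'_five, h29s51_G]
  simp only [eval_sub, eval_mul, eval_pow, h29s51_eval_Ψ₂Sq, h29s51_eval_Ψ₃, h29s51_eval_preΨ₄]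

theorem h29s51_natDegree_preΨ'_five (h5 : (5 : K) ≠ 0) : (E.preΨ' 5).natDegree = 12 := by
  have h : ((5 : ℕ) : K) ≠ 0 := by exact_mod_cast h5
  rw [E.natDegree_preΨ' h]
  have : ¬ Even 5 := by decide
  simp [this]

theorem h29s51_preΨ'_five_ne_zero (h5 : (5 : K) ≠ 0) : E.preΨ' 5 ≠ 0 := by
  have h : ((5 : ℕ) : K) ≠ 0 := by exact_mod_cast h5
  exact E.preΨ'_ne_zero h

end Poly

/-! ### Main statements -/

section Main

variable {K : Type*} [Field K] [DecidableEq K] (E : WeierstrassCurve.Affine K)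

open WeierstrassCurve.Affine

/-- **(T5c)**, strong form: the `x`-coordinates of the nonzero 5-torsion points are roots of
`preΨ' 5`, a nonzero polynomial of degree `12` (if `5 ≠ 0` in `K`). -/
theorem h29s51_five_root {x y : K} (h : E.Nonsingular x y)
    (h5 : (5 : ℕ) • Point.some x y h = 0) : (E.preΨ' 5).eval x = 0 := by
  rw [h29s51_eval_preΨ'_five]
  exact h29s51_five_G E h h5

/-- **(T5c)** in the shape requested. -/
theorem h29s51_five_poly [CharZero K] : ∃ F : Polynomial K, F ≠ 0 ∧ F.natDegree ≤ 16 ∧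
    ∀ (x y : K) (h : E.Nonsingular x y), (5 : ℕ) • Point.some x y h = 0 → F.eval x = 0 := by
  have h5 : (5 : K) ≠ 0 := by norm_num
  refine ⟨E.preΨ' 5, h29s51_preΨ'_five_ne_zero E h5, ?_, fun x y h h5' => h29s51_five_root E h h5'⟩
  rw [h29s51_natDegree_preΨ'_five E h5]
  norm_num

/-- **(T5c)** with the sharp degree bound `12`. -/
theorem h29s51_five_poly' [CharZero K] : ∃ F : Polynomial K, F ≠ 0 ∧ F.natDegree ≤ 12 ∧
    ∀ (x y : K) (h : E.Nonsingular x y), (5 : ℕ) • Point.some x y h = 0 → F.eval x = 0 := by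
  have h5 : (5 : K) ≠ 0 := by norm_num
  exact ⟨E.preΨ' 5, h29s51_preΨ'_five_ne_zero E h5, (h29s51_natDegree_preΨ'_five E h5).le,
    fun x y h h5' => h29s51_five_root E h h5'⟩

omit [DecidableEq K] in
/-- every `x` is the `x`-coordinate of a point of the curve (over an algebraically closed field) -/
theorem h29s51_exists_Y [IsAlgClosed K] (x₀ : K) : ∃ y₀ : K, E.Equation x₀ y₀ := by
  have hdeg : (C (1 : K) * X ^ 2 + C (E.a₁ * x₀ + E.a₃) * X
      + C (-(x₀ ^ 3 + E.a₂ * x₀ ^ 2 + E.a₄ * x₀ + E.a₆))).degree ≠ 0 := by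
    rw [degree_quadratic one_ne_zero]
    norm_num
  obtain ⟨y₀, hy₀⟩ := IsAlgClosed.exists_root _ hdeg
  refine ⟨y₀, ?_⟩
  rw [equation_iff]
  simp only [IsRoot.def, eval_add, eval_mul, eval_C, eval_pow, eval_X] at hy₀
  linear_combination hy₀

/-- **(T5a)** -/
theorem h29s51_exists_five [IsAlgClosed K] [CharZero K] (hΔ : E.Δ ≠ 0) :
    ∃ P : E.Point, P ≠ 0 ∧ (5 : ℕ) • P = 0 := by
  have h5 : (5 : K) ≠ 0 := by norm_num
  have hdeg : (E.preΨ' 5).degree ≠ 0 := by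
    rw [degree_eq_natDegree (h29s51_preΨ'_five_ne_zero E h5), h29s51_natDegree_preΨ'_five E h5]
    norm_num
  obtain ⟨x₀, hx₀⟩ := IsAlgClosed.exists_root _ hdeg
  have hG : h29s51_G E x₀ = 0 := by
    rw [← h29s51_eval_preΨ'_five]
    exact hx₀
  obtain ⟨y₀, hy₀⟩ := h29s51_exists_Y E x₀
  have hns : E.Nonsingular x₀ y₀ := (E.equation_iff_nonsingular_of_Δ_ne_zero hΔ).mp hy₀
  -- `M(x₀) ≠ 0`
  have hM : h29s51_M E x₀ ≠ 0 := by
    intro hM
    have hP3 : h29s51_P3 E x₀ = 0 := by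
      have h3 : h29s51_P3 E x₀ ^ 3 = 0 := by
        have := hG
        rw [h29s51_G, hM] at this
        linear_combination -this
      exact (pow_eq_zero_iff (n := 3) (by norm_num)).mp h3
    have hM' : 12 * x₀ ^ 2 + 2 * E.b₂ * x₀ + 2 * E.b₄ = 0 := by
      have h16 := h29s51_sixteen_P3 E x₀
      rw [hP3, hM] at h16
      have : (12 * x₀ ^ 2 + 2 * E.b₂ * x₀ + 2 * E.b₄) ^ 2 = 0 := by linear_combination h16
      exact (pow_eq_zero_iff (n := 2) (by norm_num)).mp this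
    have hy : y₀ = E.negY x₀ y₀ := (h29s51_Y_eq_negY_iff E hy₀).mpr hM
    rw [negY] at hy
    have hns' := hns
    rw [nonsingular_iff] at hns'
    rcases hns'.2 with h | h
    · apply h
      have hω : 2 * y₀ + E.a₁ * x₀ + E.a₃ = 0 := by linear_combination hy
      have h4 : (4 : K) ≠ 0 := by norm_num
      apply mul_left_cancel₀ h4
      simp only [b₂, b₄] at hM'
      linear_combination 2 * E.a₁ * hω - hM'
    · exact h hy
  obtain ⟨x₂, y₂, h₂, h2, rel₁⟩ := h29s51_two_nsmul E hns hM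
  -- `Ψ₃(x₀) ≠ 0`
  have hP3 : h29s51_P3 E x₀ ≠ 0 := by
    intro hP3
    have hx : x₂ = x₀ := by
      have : (x₀ - x₂) * h29s51_M E x₀ = 0 := by
        rw [sub_mul, rel₁, ← h29s51_P3_eq, hP3]
      rcases mul_eq_zero.mp this with h | h
      · exact (sub_eq_zero.mp h).symm
      · exact absurd h hM
    have hP4 : h29s51_P4 E x₀ = 0 := by
      have := hG
      rw [h29s51_G, hP3] at this
      have h' : h29s51_P4 E x₀ * h29s51_M E x₀ ^ 2 = 0 := by linear_combination this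
      exact (mul_eq_zero.mp h').resolve_right (pow_ne_zero _ hM)
    have := h29s51_M_dbl E rel₁
    rw [hP4, hx] at this
    have h'' : h29s51_M E x₀ ^ 4 = 0 := by linear_combination this
    exact hM ((pow_eq_zero_iff (n := 4) (by norm_num)).mp h'')
  have hne : x₀ ≠ x₂ := by
    intro hx
    apply hP3
    rw [h29s51_P3_eq, ← rel₁, ← hx, sub_self]
  have hP4 : h29s51_P4 E x₀ ≠ 0 := by
    intro hP4
    have := hG
    rw [h29s51_G, hP4] at this
    have h3 : h29s51_P3 E x₀ ^ 3 = 0 := by linear_combination -this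
    exact hP3 ((pow_eq_zero_iff (n := 3) (by norm_num)).mp h3)
  have hM₂ : h29s51_M E x₂ ≠ 0 := by
    intro hM₂
    have := h29s51_M_dbl E rel₁
    rw [hM₂, zero_mul] at this
    exact hP4 ((pow_eq_zero_iff (n := 2) (by norm_num)).mp this.symm)
  obtain ⟨x₄, y₄, h₄, h4, rel₂⟩ := h29s51_two_nsmul E h₂ hM₂
  have hx₄ : x₄ = x₀ := by
    have hkey := h29s51_key E rel₁
    rw [hG, mul_zero] at hkey
    have h0 : h29s51_N E x₂ - x₀ * h29s51_M E x₂ = 0 :=
      (mul_eq_zero.mp hkey).resolve_right (pow_ne_zero _ hM)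
    have : (x₄ - x₀) * h29s51_M E x₂ = 0 := by
      rw [sub_mul, rel₂]
      exact h0
    exact sub_eq_zero.mp ((mul_eq_zero.mp this).resolve_right hM₂)
  subst hx₄
  refine ⟨Point.some x₄ y₀ hns, Point.some_ne_zero _, ?_⟩
  rw [← h2] at h4
  rcases h29s51_eq_or_eq_neg E h₄ hns with h | h
  · -- `4P = P`, so `2P = -P`, so `x₂ = x₀`: contradiction
    exfalso
    rw [← h4] at h
    have h3 : Point.some x₂ y₂ h₂ = -Point.some x₄ y₀ hns := by
      rw [← h2]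
      have e : (2 : ℕ) • Point.some x₄ y₀ hns =
          (2 : ℕ) • ((2 : ℕ) • Point.some x₄ y₀ hns) - Point.some x₄ y₀ hns
            - Point.some x₄ y₀ hns := by abel
      rw [e, h, sub_self, zero_sub]
    rw [Point.neg_some] at h3
    simp only [Point.some.injEq] at h3
    exact hne h3.1.symm
  · -- `4P = -P`
    rw [← h4] at h
    have e : (5 : ℕ) • Point.some x₄ y₀ hns =
        (2 : ℕ) • ((2 : ℕ) • Point.some x₄ y₀ hns) + Point.some x₄ y₀ hns := by abel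
    rw [e, h, neg_add_cancel]

end Main

end Fermat.Agent.H3S51
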