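/-
S51 shared lemmas (helper3): linear algebra over `ZMod p`, the Galois action on coordinates,
the fixed field of `Gal(Q̄/ℚ)`, and a counting lemma for points with `x`-coordinates among the
roots of a nonzero polynomial.
-/
import Mathlib
import Fermat.Prelude.Def_FLTPrelim_GaloisRep

set_option autoImplicit false
set_option linter.unusedSectionVars false
set_option linter.style.haveILetI false

namespace Fermat.Agent.H3S51

open WeierstrassCurve Polynomial

/-! ### Line lemma -/

/-- A proper nonzero submodule of a `ZMod p`-vector space with fewer than `p ^ 3` elements is a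
line: all its elements are `ℕ`-multiples of a single nonzero vector. -/
theorem h3s51_line {p : ℕ} [Fact p.Prime] {V : Type*} [AddCommGroup V] [Module (ZMod p) V]
    [Finite V] (hcard : Nat.card V < p ^ 3) (N : Submodule (ZMod p) V) (hbot : N ≠ ⊥)
    (htop : N ≠ ⊤) :
    ∃ P ∈ N, P ≠ 0 ∧ ∀ Q ∈ N, ∃ k : ℕ, Q = k • P := by
  classical
  have hp : p.Prime := Fact.out
  letI : Fintype V := Fintype.ofFinite V
  have hV : Nat.card V = p ^ Module.finrank (ZMod p) V := by
    rw [Nat.card_eq_fintype_card, Module.card_eq_pow_finrank (K := ZMod p) (V := V), ZMod.card]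
  have hfin : Module.finrank (ZMod p) V < 3 := by
    rw [hV] at hcard
    exact (Nat.pow_lt_pow_iff_right hp.one_lt).mp hcard
  have hN1 : 0 < Module.finrank (ZMod p) N := by
    rw [Module.finrank_pos_iff]
    exact (Submodule.nontrivial_iff_ne_bot).mpr hbot
  have hN2 : Module.finrank (ZMod p) N < Module.finrank (ZMod p) V :=
    Submodule.finrank_lt htop
  have hN : Module.finrank (ZMod p) N = 1 := by omega
  obtain ⟨v, hv0, hv⟩ := (finrank_eq_one_iff' (K := ZMod p) (V := N)).mp hN
  refine ⟨v, v.2, fun h => hv0 (Subtype.ext h), fun Q hQ => ?_⟩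
  obtain ⟨c, hc⟩ := hv ⟨Q, hQ⟩
  refine ⟨c.val, ?_⟩
  have h1 : (c • v : N) = (c.val : ZMod p) • v := by rw [ZMod.natCast_zmod_val]
  have h2 : ((c.val : ZMod p) • v : N) = c.val • v := Nat.cast_smul_eq_nsmul (ZMod p) c.val v
  have h3 : (⟨Q, hQ⟩ : N) = c.val • v := by rw [← hc, h1, h2]
  have := congrArg Subtype.val h3
  simpa using this

/-! ### The fixed field of the absolute Galois group, and the action on coordinates -/


theorem h3s51_isGalois : IsGalois ℚ (AlgebraicClosure ℚ) := by
  have h : (DivisionRing.toRatAlgebra : Algebra ℚ (AlgebraicClosure ℚ)) =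
      AlgebraicClosure.instAlgebra ℚ := Subsingleton.elim _ _
  rw [h]
  infer_instance

theorem h3s51_fixed (z : AlgebraicClosure ℚ)
    (hz : ∀ σ : AlgebraicClosure ℚ ≃ₐ[ℚ] AlgebraicClosure ℚ, σ z = z) :
    ∃ q : ℚ, algebraMap ℚ (AlgebraicClosure ℚ) q = z := by
  haveI := h3s51_isGalois
  exact (InfiniteGalois.mem_range_algebraMap_iff_fixed (k := ℚ) (K := AlgebraicClosure ℚ) z).mpr hz

theorem h3s51_isAlgClosed : IsAlgClosed (AlgebraicClosure ℚ) := inferInstance

section
open WeierstrassCurve.Affine
variable {R : Type*} {S : Type*} {K : Type*} [CommRing R] [CommRing S] [Field K]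
  [DecidableEq K] {W' : Affine R} [Algebra R S] [Algebra R K] [Algebra S K]
  [IsScalarTower R S K]

theorem h3s51_smul_some (σ : K ≃ₐ[S] K) {x y : K} (h : (W'⁄K).Nonsingular x y) :
    ∃ h' : (W'⁄K).Nonsingular (σ x) (σ y),
      σ • (Affine.Point.some x y h : (W'⁄K).Point) = Affine.Point.some (σ x) (σ y) h' := by
  refine ⟨?_, ?_⟩
  · exact (W'.baseChange_nonsingular (f := σ.toAlgHom) σ.toAlgHom.injective ..).mpr h
  · rfl

end


/-! ### Counting -/


section count
open WeierstrassCurve.Affine
variable {K : Type*} [Field K] [DecidableEq K] (E : Affine K)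

/-- coordinates of a point, `none` for the point at infinity. -/
def h3s51_coords : E.Point → Option (K × K)
  | .zero => none
  | .some x y _ => some (x, y)

theorem h3s51_coords_injective : Function.Injective (h3s51_coords E) := by
  rintro (_ | ⟨x₁, y₁, h₁⟩) (_ | ⟨x₂, y₂, h₂⟩) h
  · rfl
  · simp [h3s51_coords] at h
  · simp [h3s51_coords] at h
  · simp only [h3s51_coords, Option.some.injEq, Prod.mk.injEq] at h
    obtain ⟨rfl, rfl⟩ := h
    rfl

/-- the monic quadratic in `y` whose roots are the `y`-coordinates above `x`. -/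
noncomputable def h3s51_quad (x : K) : K[X] :=
  X ^ 2 + C (E.a₁ * x + E.a₃) * X - C (x ^ 3 + E.a₂ * x ^ 2 + E.a₄ * x + E.a₆)

theorem h3s51_quad_monic (x : K) : (h3s51_quad E x).Monic := by
  unfold h3s51_quad
  monicity!

theorem h3s51_quad_natDegree (x : K) : (h3s51_quad E x).natDegree = 2 := by
  unfold h3s51_quad
  compute_degree!

theorem h3s51_quad_eval (x y : K) :
    (h3s51_quad E x).eval y = 0 ↔ E.Equation x y := by
  rw [Affine.equation_iff]
  simp only [h3s51_quad, eval_sub, eval_add, eval_pow, eval_X, eval_mul, eval_C]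
  constructor <;> intro h <;> linear_combination h

/-- the finite set of pairs `(x, y)` on the curve with `F(x) = 0`. -/
noncomputable def h3s51_pairs (F : K[X]) : Finset (K × K) :=
  F.roots.toFinset.biUnion fun x => (h3s51_quad E x).roots.toFinset.image (Prod.mk x)

theorem h3s51_pairs_card (F : K[X]) : (h3s51_pairs E F).card ≤ 2 * F.natDegree := by
  unfold h3s51_pairs
  refine (Finset.card_biUnion_le).trans ?_
  have h1 : ∀ x ∈ F.roots.toFinset,
      ((h3s51_quad E x).roots.toFinset.image (Prod.mk x)).card ≤ 2 := by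
    intro x _
    refine (Finset.card_image_le).trans ?_
    refine (Multiset.toFinset_card_le _).trans ?_
    refine (Polynomial.card_roots' _).trans ?_
    rw [h3s51_quad_natDegree]
  refine (Finset.sum_le_card_nsmul _ _ 2 h1).trans ?_
  rw [smul_eq_mul, mul_comm]
  exact Nat.mul_le_mul_left 2 ((Multiset.toFinset_card_le _).trans (Polynomial.card_roots' _))

theorem h3s51_mem_pairs {F : K[X]} (hF : F ≠ 0) {x y : K} (hx : F.eval x = 0)
    (hxy : E.Equation x y) : (x, y) ∈ h3s51_pairs E F := by
  unfold h3s51_pairs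
  rw [Finset.mem_biUnion]
  refine ⟨x, ?_, ?_⟩
  · rw [Multiset.mem_toFinset, Polynomial.mem_roots hF]
    exact hx
  · rw [Finset.mem_image]
    refine ⟨y, ?_, rfl⟩
    rw [Multiset.mem_toFinset, Polynomial.mem_roots (h3s51_quad_monic E x).ne_zero]
    exact (h3s51_quad_eval E x y).mpr hxy

/-- **Counting lemma.** A set of points whose affine members have `x`-coordinates among the roots
of a nonzero polynomial `F` is finite, of cardinality at most `2 deg F + 1`. -/
theorem h3s51_count (F : K[X]) (hF : F ≠ 0) (S : Set E.Point)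
    (hS : ∀ (x y : K) (h : E.Nonsingular x y), Point.some x y h ∈ S → F.eval x = 0) :
    S.Finite ∧ S.ncard ≤ 2 * F.natDegree + 1 := by
  classical
  set T : Finset (Option (K × K)) := insert none ((h3s51_pairs E F).image some) with hT
  have hmaps : ∀ P ∈ S, h3s51_coords E P ∈ (T : Set (Option (K × K))) := by
    rintro (_ | ⟨x, y, h⟩) hP
    · simp [hT, h3s51_coords]
    · have hx := hS x y h hP
      have := h3s51_mem_pairs E hF hx h.1
      simp [hT, h3s51_coords, this]
  have hinj : Set.InjOn (h3s51_coords E) S := (h3s51_coords_injective E).injOn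
  have hfin : S.Finite := Set.Finite.of_injOn hmaps hinj T.finite_toSet
  refine ⟨hfin, ?_⟩
  have h1 : S.ncard ≤ (T : Set (Option (K × K))).ncard :=
    Set.ncard_le_ncard_of_injOn _ hmaps hinj T.finite_toSet
  rw [Set.ncard_coe_finset] at h1
  refine h1.trans ?_
  rw [hT]
  refine (Finset.card_insert_le _ _).trans ?_
  have := (Finset.card_image_le (s := h3s51_pairs E F) (f := some)).trans (h3s51_pairs_card E F)
  omega

/-- Counting lemma, torsion form. -/
theorem h3s51_card_torsion (n : ℕ) (F : K[X]) (hF : F ≠ 0)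
    (hroot : ∀ (x y : K) (h : E.Nonsingular x y), n • Point.some x y h = 0 → F.eval x = 0) :
    Finite (Submodule.torsionBy ℤ E.Point (n : ℤ)) ∧
      Nat.card (Submodule.torsionBy ℤ E.Point (n : ℤ)) ≤ 2 * F.natDegree + 1 := by
  have key := h3s51_count E F hF (Submodule.torsionBy ℤ E.Point (n : ℤ) : Set E.Point) (by
    intro x y h hP
    apply hroot x y h
    have := (Submodule.mem_torsionBy_iff _ _).mp hP
    simpa using this)
  refine ⟨key.1, ?_⟩
  have := key.2
  rwa [Set.ncard_eq_toFinset_card _ key.1, ← Nat.card_eq_card_finite_toFinset key.1] at this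

end count

end Fermat.Agent.H3S51
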