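import Mathlib

/-!
# S51 core (helper10): the Diophantine heart of the `X_0(15)` argument

Given rational `T, S ≠ 0` on the plane model `(T+27)(T+3)^3 S = (S^2+10S+5)^3 T` of `X_0(15)`
(fibre product of `X_0(3)` and `X_0(5)` over the `j`-line), the modular unit
`f = (3S^3+39S^2+105S-T^2-18T)/((T+3)(1-4S-S^2))` satisfies
`f^3 S^2 + (f^4+9f^3+9f-1) S + 125 f = 0`, hence `(f, z)` is a rational point on the quartic
`z^2 = (f^2-f-1)(f^2+11f-1)`.  Given that the quartic has only the rational points with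
`f ∈ {0, 2, -1/2}`, we get `S ∈ {-10, -25/8, -25/2, -40}`.
-/

namespace Fermat.Agent.H10S51

/-- `5` is not a square in `ℚ`. -/
theorem h10_not_sq_five (x : ℚ) : x ^ 2 ≠ 5 := by
  intro h
  have h5 : IsSquare (5 : ℚ) := ⟨x, by rw [← h]; ring⟩
  rw [Rat.isSquare_iff] at h5
  obtain ⟨⟨r, hr⟩, -⟩ := h5
  have hr' : (5 : ℤ) = r * r := by simpa using hr
  have hr2 : r.natAbs * r.natAbs = 5 := by
    have := congrArg Int.natAbs hr'
    simpa [Int.natAbs_mul] using this.symm
  have hle : r.natAbs ≤ 5 := by nlinarith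
  interval_cases r.natAbs <;> omega

/-- The hypothesis on the rational points of the quartic model of `X_0(15)`. -/
def H10QuarticHyp : Prop :=
  ∀ f z : ℚ, z ^ 2 = (f ^ 2 - f - 1) * (f ^ 2 + 11 * f - 1) → f = 0 ∨ f = 2 ∨ f = -1 / 2

theorem h10_core (hQ : H10QuarticHyp) (T S : ℚ) (hT : T ≠ 0) (hS : S ≠ 0)
    (hF : (T + 27) * (T + 3) ^ 3 * S = (S ^ 2 + 10 * S + 5) ^ 3 * T) :
    S = -10 ∨ S = -25 / 8 ∨ S = -25 / 2 ∨ S = -40 := by
  -- `T ≠ -3`
  have hT3 : T + 3 ≠ 0 := by
    intro h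
    have hT' : T = -3 := by linarith
    rw [hT'] at hF
    have h0 : (S ^ 2 + 10 * S + 5) ^ 3 = 0 := by nlinarith
    have h1 : S ^ 2 + 10 * S + 5 = 0 := by
      exact pow_eq_zero_iff (n := 3) (by norm_num) |>.mp h0
    exact h10_not_sq_five ((S + 5) / 2) (by nlinarith)
  have hS4 : S ^ 2 + 4 * S - 1 ≠ 0 := by
    intro h
    exact h10_not_sq_five (S + 2) (by nlinarith)
  set D : ℚ := (T + 3) * (1 - 4 * S - S ^ 2) with hD
  have hD0 : D ≠ 0 := by
    rw [hD]
    refine mul_ne_zero hT3 ?_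
    intro h
    exact hS4 (by linarith)
  set N : ℚ := 3 * S ^ 3 + 39 * S ^ 2 + 105 * S - T ^ 2 - 18 * T with hN
  set f : ℚ := N / D with hf
  -- the key relation (certificate computed by exact division)
  have hG : N ^ 3 * D * S ^ 2 + (N ^ 4 + 9 * N ^ 3 * D + 9 * N * D ^ 3 - D ^ 4) * S
      + 125 * N * D ^ 3 = 0 := by
    rw [hN, hD]
    linear_combination
      (T^4 + T^3*S^3 + 13*T^3*S^2 + 35*T^3*S + 27*T^3 + 9*T^2*S^3 + 117*T^2*S^2 + 315*T^2*S
        + 189*T^2 - 216*T*S^4 - 1917*T*S^3 - 5481*T*S^2 - 4887*T*S + 513*T + 27*S^7 + 594*S^6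
        + 4833*S^5 + 18468*S^4 + 32832*S^3 + 19305*S^2 - 5616*S + 486) * hF
  have hrel : f ^ 3 * S ^ 2 + (f ^ 4 + 9 * f ^ 3 + 9 * f - 1) * S + 125 * f = 0 := by
    have : (f ^ 3 * S ^ 2 + (f ^ 4 + 9 * f ^ 3 + 9 * f - 1) * S + 125 * f) * D ^ 4 = 0 := by
      rw [hf]
      field_simp
      linear_combination hG
    rcases mul_eq_zero.mp this with h | h
    · exact h
    · exact absurd (pow_eq_zero_iff (n := 4) (by norm_num) |>.mp h) hD0
  have hf0 : f ≠ 0 := by
    intro h
    rw [h] at hrel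
    apply hS
    linarith
  have hf4 : f ^ 2 + 4 * f - 1 ≠ 0 := by
    intro h
    exact h10_not_sq_five (f + 2) (by nlinarith)
  have hz : ((2 * f ^ 3 * S + (f ^ 4 + 9 * f ^ 3 + 9 * f - 1)) / (f ^ 2 + 4 * f - 1)) ^ 2
      = (f ^ 2 - f - 1) * (f ^ 2 + 11 * f - 1) := by
    rw [div_pow, div_eq_iff (pow_ne_zero 2 hf4)]
    linear_combination (4 * f ^ 3) * hrel
  rcases hQ f _ hz with h | h | h
  · exact absurd h hf0
  · rw [h] at hrel
    have h1 : (S + 10) * (8 * S + 25) = 0 := by linear_combination hrel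
    rcases mul_eq_zero.mp h1 with h2 | h2
    · left; linarith
    · right; left; linarith
  · rw [h] at hrel
    have h1 : (S + 40) * (2 * S + 25) = 0 := by linear_combination (-16 : ℚ) * hrel
    rcases mul_eq_zero.mp h1 with h2 | h2
    · right; right; right; linarith
    · right; right; left; linarith


/-- From the descent statement on `15a2 : y² = x(x-1)(x-81)` to the rational points of the
quartic model `z² = (f²-f-1)(f²+11f-1)` of `X_0(15)`. -/
theorem h10s51_quartic (hdesc : ∀ x y : ℚ, y ^ 2 = x * (x - 1) * (x - 81) → y = 0) :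
    H10QuarticHyp := by
  intro f z hz
  set X : ℚ := 2 * (z + f ^ 2 + 5 * f - 1) with hX
  set Z : ℚ := (4 * f + 10) * (z + f ^ 2 + 5 * f - 19) + 180 with hZdef
  have hZ : Z ^ 2 = X * (X - 16) * (X + 9) := by
    rw [hX, hZdef]
    linear_combination (-8 * z - 8 * f ^ 2 - 40 * f + 152) * hz
  have hquad : (144 - 4 * X) * f ^ 2 - 20 * X * f + (X ^ 2 + 4 * X) = 0 := by
    rw [hX]
    linear_combination 4 * hz
  by_cases hX16 : X = 16
  · rw [hX16] at hquad
    have h2 : (f - 2) ^ 2 = 0 := by linear_combination hquad / 80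
    right; left
    have := pow_eq_zero_iff (n := 2) (by norm_num) |>.mp h2
    linarith
  · have hX16' : X - 16 ≠ 0 := sub_ne_zero.mpr hX16
    have key : (Z * ((X - 16) ^ 2 - 400)) ^ 2
        = X * (X + 9) * (X * (X + 9) - (X - 16)) * (X * (X + 9) - 81 * (X - 16)) * (X - 16) := by
      linear_combination (X ^ 4 - 64 * X ^ 3 + 736 * X ^ 2 + 9216 * X + 20736) * hZ
    have hy : (Z * ((X - 16) ^ 2 - 400) / (X - 16) ^ 2) ^ 2
        = (X * (X + 9) / (X - 16)) * (X * (X + 9) / (X - 16) - 1)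
          * (X * (X + 9) / (X - 16) - 81) := by
      field_simp
      linear_combination key
    have hy0 := hdesc _ _ hy
    have hy1 : Z * ((X - 16) ^ 2 - 400) = 0 := by
      rcases div_eq_zero_iff.mp hy0 with h | h
      · exact h
      · exact absurd (pow_eq_zero_iff (n := 2) (by norm_num) |>.mp h) hX16'
    rcases mul_eq_zero.mp hy1 with hZ0 | hX400
    · -- `Z = 0`, so `X ∈ {0, -9}`
      rw [hZ0] at hZ
      have h3 : X * (X - 16) * (X + 9) = 0 := by linear_combination -hZ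
      rcases mul_eq_zero.mp h3 with h4 | h4
      · rcases mul_eq_zero.mp h4 with h5 | h5
        · -- X = 0
          rw [h5] at hquad
          have : f ^ 2 = 0 := by linear_combination hquad / 144
          left
          exact pow_eq_zero_iff (n := 2) (by norm_num) |>.mp this
        · exact absurd h5 hX16'
      · -- X = -9
        have hX9 : X = -9 := by linarith
        rw [hX9] at hquad
        have h2 : (2 * f + 1) ^ 2 = 0 := by linear_combination hquad / 45
        right; right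
        have := pow_eq_zero_iff (n := 2) (by norm_num) |>.mp h2
        linarith
    · -- `(X - 16)² = 400`, so `X ∈ {36, -4}`
      have h3 : (X - 36) * (X + 4) = 0 := by linear_combination hX400
      rcases mul_eq_zero.mp h3 with h4 | h4
      · have hX36 : X = 36 := by linarith
        rw [hX36] at hquad
        right; left
        linarith
      · have hX4 : X = -4 := by linarith
        rw [hX4] at hquad
        have h5 : f * (2 * f + 1) = 0 := by linear_combination hquad / 80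
        rcases mul_eq_zero.mp h5 with h6 | h6
        · left; exact h6
        · right; right; linarith

/-- **S51 core.** Rational points with `ts ≠ 0` on the plane model of `X_0(15)` have
`s ∈ {-25/8, -10, -25/2, -40}`, given the descent statement on `15a2`. -/
theorem h10s51_core (hdesc : ∀ x y : ℚ, y ^ 2 = x * (x - 1) * (x - 81) → y = 0) (t s : ℚ)
    (ht : t ≠ 0) (hs : s ≠ 0)
    (hG : (t + 27) * (t + 3) ^ 3 * s = (s ^ 2 + 10 * s + 5) ^ 3 * t) :
    s = -25 / 8 ∨ s = -10 ∨ s = -25 / 2 ∨ s = -40 := by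
  rcases h10_core (h10s51_quartic hdesc) t s ht hs hG with h | h | h | h
  · right; left; exact h
  · left; exact h
  · right; right; left; exact h
  · right; right; right; exact h

theorem h10_five_dvd_aux (c4 D A B' : ℤ) (hA : ¬ (5 : ℤ) ∣ A) (hB' : ¬ (5 : ℤ) ∣ B')
    (h : A * c4 ^ 3 = 5 * B' * D ∨ A * c4 ^ 3 = 25 * B' * D) :
    (5 : ℤ) ∣ c4 ∧ (5 : ℤ) ∣ D := by
  have hp : Prime (5 : ℤ) := Int.prime_iff_natAbs_prime.mpr (by norm_num)
  have h5 : (5 : ℤ) ∣ A * c4 ^ 3 := by
    rcases h with h | h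
    · exact ⟨B' * D, by rw [h]; ring⟩
    · exact ⟨5 * B' * D, by rw [h]; ring⟩
  have hc : (5 : ℤ) ∣ c4 := by
    rcases hp.dvd_or_dvd h5 with h1 | h1
    · exact absurd h1 hA
    · exact hp.dvd_of_dvd_pow h1
  refine ⟨hc, ?_⟩
  obtain ⟨k, rfl⟩ := hc
  rcases h with h | h
  · have h' : A * k ^ 3 * 125 = B' * D * 5 := by linear_combination h
    have h2 : (5 : ℤ) ∣ B' * D := ⟨5 * A * k ^ 3, by linarith⟩
    rcases hp.dvd_or_dvd h2 with h3 | h3
    · exact absurd h3 hB'
    · exact h3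
  · have h' : A * k ^ 3 * 125 = B' * D * 25 := by linear_combination h
    have h2 : (5 : ℤ) ∣ B' * D := ⟨A * k ^ 3, by linarith⟩
    rcases hp.dvd_or_dvd h2 with h3 | h3
    · exact absurd h3 hB'
    · exact h3

/-- **S51 endgame.** None of the four `s`-values is compatible with semistability at `5`. -/
theorem h10s51_final (c4 D : ℤ) (hD : D ≠ 0)
    (hss : ∀ p : ℕ, p.Prime → (p : ℤ) ∣ D → ¬ (p : ℤ) ∣ c4)
    (s : ℚ) (hs : s = -25 / 8 ∨ s = -10 ∨ s = -25 / 2 ∨ s = -40)
    (h : (c4 : ℚ) ^ 3 * s = D * (s ^ 2 + 10 * s + 5) ^ 3) : False := by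
  have key : (5 : ℤ) ∣ c4 ∧ (5 : ℤ) ∣ D := by
    rcases hs with rfl | rfl | rfl | rfl
    · -- s = -25/8 : 2^15 c4^3 = 5 * 211^3 * D
      refine h10_five_dvd_aux c4 D (2 ^ 15) (211 ^ 3) (by norm_num) (by norm_num) (Or.inl ?_)
      have h' : ((2 : ℚ) ^ 15) * (c4 : ℚ) ^ 3 = 5 * 211 ^ 3 * D := by
        linear_combination (-(2 : ℚ) ^ 18 / 25) * h
      exact_mod_cast h'
    · -- s = -10 : -2 c4^3 = 25 D
      refine h10_five_dvd_aux c4 D (-2) 1 (by norm_num) (by norm_num) (Or.inr ?_)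
      have h' : (-2 : ℚ) * (c4 : ℚ) ^ 3 = 25 * 1 * D := by
        linear_combination (1 / 5 : ℚ) * h
      exact_mod_cast h'
    · -- s = -25/2 : -32 c4^3 = 5 * 29^3 * D
      refine h10_five_dvd_aux c4 D (-32) (29 ^ 3) (by norm_num) (by norm_num) (Or.inl ?_)
      have h' : (-32 : ℚ) * (c4 : ℚ) ^ 3 = 5 * 29 ^ 3 * D := by
        linear_combination (64 / 25 : ℚ) * h
      exact_mod_cast h'
    · -- s = -40 : -8 c4^3 = 25 * 241^3 * D
      refine h10_five_dvd_aux c4 D (-8) (241 ^ 3) (by norm_num) (by norm_num) (Or.inr ?_)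
      have h' : (-8 : ℚ) * (c4 : ℚ) ^ 3 = 25 * 241 ^ 3 * D := by
        linear_combination (1 / 5 : ℚ) * h
      exact_mod_cast h'
  exact hss 5 (by norm_num) (by exact_mod_cast key.2) (by exact_mod_cast key.1)

end Fermat.Agent.H10S51
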