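import Fermat.Agent.S51.Descent15A

/-!
# S51 slice P4, part B: the four descent steps on `y² = x (x - 1) (x - 81)`

For each of the four classes `e ∈ {1, -1, 5, -5}` and positive integers `a n b c` with
`a² - n² = e b²`, `a² - 81 n² = e c²` we produce a rational point `(x', y')` on the curve with
`y' ≠ 0` and naive height `< a² + n²`.
-/

set_option autoImplicit false

namespace Fermat.Agent.H3S51

/-- Integer-valued height bound for a quotient of positive integers. -/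
theorem h27_height_div_lt (N D M : ℤ) (hN : 0 < N) (hD : 0 < D) (hM : N + D < M) :
    ((((N : ℚ) / D).num.natAbs : ℤ) + (((N : ℚ) / D).den : ℤ)) < M := by
  have h := h27_height_div_le N D hD.ne'
  have h' : ((((N : ℚ) / D).num.natAbs + ((N : ℚ) / D).den : ℕ) : ℤ) ≤
      ((N.natAbs + D.natAbs : ℕ) : ℤ) := by exact_mod_cast h
  push_cast at h'
  rw [abs_of_pos hN, abs_of_pos hD] at h'
  have e1 : ((((N : ℚ) / D).num.natAbs : ℤ)) = |((N : ℚ) / D).num| := by simp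
  rw [e1]
  linarith

/-- Descent step, class `e = 1`. -/
theorem h27_step_pos1 (a n b c : ℤ) (ha : 0 < a) (hn : 0 < n) (hb : 0 < b) (hc : 0 < c)
    (h1 : a ^ 2 - n ^ 2 = b ^ 2) (h2 : a ^ 2 - 81 * n ^ 2 = c ^ 2) :
    ∃ x' y' : ℚ, y' ^ 2 = x' * (x' - 1) * (x' - 81) ∧ y' ≠ 0 ∧
      ((x'.num.natAbs : ℤ) + (x'.den : ℤ)) < a ^ 2 + n ^ 2 := by
  have hnQ : (n : ℚ) ≠ 0 := by exact_mod_cast hn.ne'
  have h1Q : (a : ℚ) ^ 2 - (n : ℚ) ^ 2 = (b : ℚ) ^ 2 := by exact_mod_cast h1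
  have h2Q : (a : ℚ) ^ 2 - 81 * (n : ℚ) ^ 2 = (c : ℚ) ^ 2 := by exact_mod_cast h2
  have hab : b < a := by nlinarith
  have hca : c < a := by nlinarith
  have hα2 : ((b : ℚ) / n) ^ 2 = ((a : ℚ) / n) ^ 2 - 1 := by
    field_simp
    linear_combination -h1Q
  have hα3 : ((c : ℚ) / n) ^ 2 = ((a : ℚ) / n) ^ 2 - 81 := by
    field_simp
    linear_combination -h2Q
  have hDQ : ((a - b : ℤ) : ℚ) ≠ 0 := by
    have : a - b ≠ 0 := by omega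
    exact_mod_cast this
  have hx' : ((a : ℚ) / n + (b : ℚ) / n) * ((a : ℚ) / n + (c : ℚ) / n) =
      ((a + c : ℤ) : ℚ) / ((a - b : ℤ) : ℚ) := by
    push_cast at hDQ ⊢
    rw [← add_div, ← add_div, div_mul_div_comm,
      div_eq_div_iff (mul_ne_zero hnQ hnQ) hDQ]
    linear_combination ((a : ℚ) + (c : ℚ)) * h1Q
  refine ⟨((a : ℚ) / n + (b : ℚ) / n) * ((a : ℚ) / n + (c : ℚ) / n),
    ((a : ℚ) / n + (b : ℚ) / n) * ((a : ℚ) / n + (c : ℚ) / n) * ((b : ℚ) / n + (c : ℚ) / n),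
    h27_halve_on_curve _ _ _ hα2 hα3, h27_halve_ne_zero _ _ _ hα2 hα3, ?_⟩
  rw [hx']
  apply h27_height_div_lt
  · omega
  · omega
  · nlinarith

/-- Descent step, class `e = -1`. -/
theorem h27_step_neg1 (a n b c : ℤ) (ha : 0 < a) (hn : 0 < n) (hb : 0 < b) (hc : 0 < c)
    (h1 : a ^ 2 - n ^ 2 = -b ^ 2) (h2 : a ^ 2 - 81 * n ^ 2 = -c ^ 2) :
    ∃ x' y' : ℚ, y' ^ 2 = x' * (x' - 1) * (x' - 81) ∧ y' ≠ 0 ∧
      ((x'.num.natAbs : ℤ) + (x'.den : ℤ)) < a ^ 2 + n ^ 2 := by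
  have haQ : (a : ℚ) ≠ 0 := by exact_mod_cast ha.ne'
  have h1Q : (a : ℚ) ^ 2 - (n : ℚ) ^ 2 = -(b : ℚ) ^ 2 := by exact_mod_cast h1
  have h2Q : (a : ℚ) ^ 2 - 81 * (n : ℚ) ^ 2 = -(c : ℚ) ^ 2 := by exact_mod_cast h2
  have hbn : b < n := by nlinarith
  have hc9n : c < 9 * n := by nlinarith
  have hα2 : ((c : ℚ) / a) ^ 2 = (9 * (n : ℚ) / a) ^ 2 - 1 := by
    field_simp
    linear_combination h2Q
  have hα3 : (-(9 * (b : ℚ)) / a) ^ 2 = (9 * (n : ℚ) / a) ^ 2 - 81 := by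
    field_simp
    linear_combination 81 * h1Q
  have hDQ : ((9 * n - c : ℤ) : ℚ) ≠ 0 := by
    have : 9 * n - c ≠ 0 := by omega
    exact_mod_cast this
  have hx' : (9 * (n : ℚ) / a + (c : ℚ) / a) * (9 * (n : ℚ) / a + -(9 * (b : ℚ)) / a) =
      ((9 * (n - b) : ℤ) : ℚ) / ((9 * n - c : ℤ) : ℚ) := by
    push_cast at hDQ ⊢
    rw [← add_div, ← add_div, div_mul_div_comm,
      div_eq_div_iff (mul_ne_zero haQ haQ) hDQ]
    linear_combination (9 * (b : ℚ) - 9 * (n : ℚ)) * h2Q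
  refine ⟨(9 * (n : ℚ) / a + (c : ℚ) / a) * (9 * (n : ℚ) / a + -(9 * (b : ℚ)) / a),
    (9 * (n : ℚ) / a + (c : ℚ) / a) * (9 * (n : ℚ) / a + -(9 * (b : ℚ)) / a) *
      ((c : ℚ) / a + -(9 * (b : ℚ)) / a),
    h27_halve_on_curve _ _ _ hα2 hα3, h27_halve_ne_zero _ _ _ hα2 hα3, ?_⟩
  rw [hx']
  apply h27_height_div_lt
  · omega
  · omega
  · nlinarith [mul_nonneg (show (0 : ℤ) ≤ 9 * n - c - 1 by omega)
      (show (0 : ℤ) ≤ 9 * n + c - 1 by omega)]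

/-- Descent step, class `e = 5`. -/
theorem h27_step_pos5 (a n b c : ℤ) (ha : 0 < a) (hn : 0 < n) (hb : 0 < b) (hc : 0 < c)
    (h1 : a ^ 2 - n ^ 2 = 5 * b ^ 2) (h2 : a ^ 2 - 81 * n ^ 2 = 5 * c ^ 2) :
    ∃ x' y' : ℚ, y' ^ 2 = x' * (x' - 1) * (x' - 81) ∧ y' ≠ 0 ∧
      ((x'.num.natAbs : ℤ) + (x'.den : ℤ)) < a ^ 2 + n ^ 2 := by
  have hcQ : (c : ℚ) ≠ 0 := by exact_mod_cast hc.ne'
  have r1 : 81 * b ^ 2 - c ^ 2 = 16 * a ^ 2 := by linarith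
  have r2 : b ^ 2 - c ^ 2 = 16 * n ^ 2 := by linarith
  have r1Q : 81 * (b : ℚ) ^ 2 - (c : ℚ) ^ 2 = 16 * (a : ℚ) ^ 2 := by exact_mod_cast r1
  have r2Q : (b : ℚ) ^ 2 - (c : ℚ) ^ 2 = 16 * (n : ℚ) ^ 2 := by exact_mod_cast r2
  have hb4n : 4 * n < b := by nlinarith
  have h2ba : 2 * b < a := by nlinarith
  have h9b4a : 4 * a < 9 * b := by nlinarith
  have hα2 : (-(4 * (a : ℚ)) / c) ^ 2 = (9 * (b : ℚ) / c) ^ 2 - 1 := by
    field_simp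
    linear_combination -r1Q
  have hα3 : (-(36 * (n : ℚ)) / c) ^ 2 = (9 * (b : ℚ) / c) ^ 2 - 81 := by
    field_simp
    linear_combination -81 * r2Q
  have hDQ : ((9 * b + 4 * a : ℤ) : ℚ) ≠ 0 := by
    have : 9 * b + 4 * a ≠ 0 := by omega
    exact_mod_cast this
  have hx' : (9 * (b : ℚ) / c + -(4 * (a : ℚ)) / c) * (9 * (b : ℚ) / c + -(36 * (n : ℚ)) / c) =
      ((9 * (b - 4 * n) : ℤ) : ℚ) / ((9 * b + 4 * a : ℤ) : ℚ) := by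
    push_cast at hDQ ⊢
    rw [← add_div, ← add_div, div_mul_div_comm,
      div_eq_div_iff (mul_ne_zero hcQ hcQ) hDQ]
    linear_combination (9 * (b : ℚ) - 36 * (n : ℚ)) * r1Q
  refine ⟨(9 * (b : ℚ) / c + -(4 * (a : ℚ)) / c) * (9 * (b : ℚ) / c + -(36 * (n : ℚ)) / c),
    (9 * (b : ℚ) / c + -(4 * (a : ℚ)) / c) * (9 * (b : ℚ) / c + -(36 * (n : ℚ)) / c) *
      (-(4 * (a : ℚ)) / c + -(36 * (n : ℚ)) / c),
    h27_halve_on_curve _ _ _ hα2 hα3, h27_halve_ne_zero _ _ _ hα2 hα3, ?_⟩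
  rw [hx']
  apply h27_height_div_lt
  · omega
  · omega
  · nlinarith [sq_nonneg (2 * a - 13)]

/-- Descent step, class `e = -5`. -/
theorem h27_step_neg5 (a n b c : ℤ) (ha : 0 < a) (hn : 0 < n) (hb : 0 < b) (hc : 0 < c)
    (h1 : a ^ 2 - n ^ 2 = -(5 * b ^ 2)) (h2 : a ^ 2 - 81 * n ^ 2 = -(5 * c ^ 2)) :
    ∃ x' y' : ℚ, y' ^ 2 = x' * (x' - 1) * (x' - 81) ∧ y' ≠ 0 ∧
      ((x'.num.natAbs : ℤ) + (x'.den : ℤ)) < a ^ 2 + n ^ 2 := by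
  have hbQ : (b : ℚ) ≠ 0 := by exact_mod_cast hb.ne'
  have r1 : c ^ 2 - b ^ 2 = 16 * n ^ 2 := by linarith
  have r2 : c ^ 2 - 81 * b ^ 2 = 16 * a ^ 2 := by linarith
  have r1Q : (c : ℚ) ^ 2 - (b : ℚ) ^ 2 = 16 * (n : ℚ) ^ 2 := by exact_mod_cast r1
  have r2Q : (c : ℚ) ^ 2 - 81 * (b : ℚ) ^ 2 = 16 * (a : ℚ) ^ 2 := by exact_mod_cast r2
  have hc4n : 4 * n < c := by nlinarith
  have hc4a : 4 * a < c := by nlinarith
  have hα2 : (-(4 * (n : ℚ)) / b) ^ 2 = ((c : ℚ) / b) ^ 2 - 1 := by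
    field_simp
    linear_combination -r1Q
  have hα3 : (-(4 * (a : ℚ)) / b) ^ 2 = ((c : ℚ) / b) ^ 2 - 81 := by
    field_simp
    linear_combination -r2Q
  have hDQ : ((c + 4 * n : ℤ) : ℚ) ≠ 0 := by
    have : c + 4 * n ≠ 0 := by omega
    exact_mod_cast this
  have hx' : ((c : ℚ) / b + -(4 * (n : ℚ)) / b) * ((c : ℚ) / b + -(4 * (a : ℚ)) / b) =
      ((c - 4 * a : ℤ) : ℚ) / ((c + 4 * n : ℤ) : ℚ) := by
    push_cast at hDQ ⊢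
    rw [← add_div, ← add_div, div_mul_div_comm,
      div_eq_div_iff (mul_ne_zero hbQ hbQ) hDQ]
    linear_combination ((c : ℚ) - 4 * (a : ℚ)) * r1Q
  refine ⟨((c : ℚ) / b + -(4 * (n : ℚ)) / b) * ((c : ℚ) / b + -(4 * (a : ℚ)) / b),
    ((c : ℚ) / b + -(4 * (n : ℚ)) / b) * ((c : ℚ) / b + -(4 * (a : ℚ)) / b) *
      (-(4 * (n : ℚ)) / b + -(4 * (a : ℚ)) / b),
    h27_halve_on_curve _ _ _ hα2 hα3, h27_halve_ne_zero _ _ _ hα2 hα3, ?_⟩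
  rw [hx']
  apply h27_height_div_lt
  · omega
  · omega
  · nlinarith [mul_nonneg hn.le (show (0 : ℤ) ≤ c - 4 * n - 1 by omega),
      sq_nonneg (c - 4 * n)]

end Fermat.Agent.H3S51
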