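import Fermat.Agent.S51.Class15
import Fermat.Agent.S51.Descent15B

/-!
# S51 slice P4: the curve `y² = x (x - 1) (x - 81)` has no rational point with `y ≠ 0`

Infinite descent on the naive height `|num x| + den x`, using the class lemma `h25d_classes`
(a point with `y ≠ 0` has `x = r²`, `x - 1 = e s²`, `x - 81 = e t²` with `e ∈ {1, -1, 5, -5}`)
and the four halving steps of `Descent15B`.
-/

set_option autoImplicit false

namespace Fermat.Agent.H3S51

/-- A rational `q` with `5 q²` an integer is an integer. -/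
theorem h27_int_of_five_sq (m : ℤ) (q : ℚ) (h : (m : ℚ) = 5 * q ^ 2) : ∃ k : ℤ, q = k := by
  have h1 : ((5 * m : ℤ) : ℚ) = (5 * q) ^ 2 := by push_cast; rw [h]; ring
  obtain ⟨B, hB⟩ := h25d_int_of_sq_int _ _ h1
  have h2 : 5 * m = B ^ 2 := by
    have : ((5 * m : ℤ) : ℚ) = ((B ^ 2 : ℤ) : ℚ) := by rw [h1, hB]; push_cast; ring
    exact_mod_cast this
  have h3 : (5 : ℤ) ∣ B := by
    have h4 : ((5 : ℕ) : ℤ) ∣ B ^ 2 := ⟨m, by rw [← h2]; norm_num⟩
    exact_mod_cast Int.Prime.dvd_pow' (by norm_num) h4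
  obtain ⟨k, hk⟩ := h3
  refine ⟨k, ?_⟩
  have : 5 * q = 5 * (k : ℚ) := by rw [hB, hk]; push_cast; ring
  linarith

/-- A rational `q` with `d q²` an integer is an integer, for `d ∈ {1, 5}`. -/
theorem h27_int_of_d_sq (d : ℤ) (hd : d = 1 ∨ d = 5) (m : ℤ) (q : ℚ)
    (h : (m : ℚ) = (d : ℚ) * q ^ 2) : ∃ k : ℤ, q = k := by
  rcases hd with rfl | rfl
  · exact h25d_int_of_sq_int m q (by rw [h]; push_cast; ring)
  · exact h27_int_of_five_sq m q (by rw [h]; push_cast; ring)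

/-- Bridge from the rational class data to positive integers. -/
theorem h27_bridge (x r s t : ℚ) (σ d : ℤ) (hσ : σ = 1 ∨ σ = -1) (hd : d = 1 ∨ d = 5)
    (hr : r ≠ 0) (hs : s ≠ 0) (ht : t ≠ 0)
    (hx : x = r ^ 2) (hx1 : x - 1 = ((σ * d : ℤ) : ℚ) * s ^ 2)
    (hx81 : x - 81 = ((σ * d : ℤ) : ℚ) * t ^ 2) :
    ∃ a n b c : ℤ, 0 < a ∧ 0 < n ∧ 0 < b ∧ 0 < c ∧
      ((x.num.natAbs : ℤ) + (x.den : ℤ)) = a ^ 2 + n ^ 2 ∧
      σ * (a ^ 2 - n ^ 2) = d * b ^ 2 ∧ σ * (a ^ 2 - 81 * n ^ 2) = d * c ^ 2 := by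
  have hσ2 : σ * σ = 1 := by rcases hσ with rfl | rfl <;> norm_num
  have hσ2Q : (σ : ℚ) * (σ : ℚ) = 1 := by exact_mod_cast hσ2
  have hd0 : d ≠ 0 := by rcases hd with rfl | rfl <;> norm_num
  have hdpos : 0 < d := by rcases hd with rfl | rfl <;> norm_num
  -- numerator and denominator of `r`
  have hnum0 : r.num ≠ 0 := Rat.num_ne_zero.mpr hr
  have hden0 : (r.den : ℤ) ≠ 0 := by exact_mod_cast r.den_nz
  have hdenQ : (r.den : ℚ) ≠ 0 := by exact_mod_cast r.den_nz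
  have hrq : r = (r.num : ℚ) / (r.den : ℚ) := (Rat.num_div_den r).symm
  have hxq : x * (r.den : ℚ) ^ 2 = (r.num : ℚ) ^ 2 := by
    rw [hx]
    nth_rewrite 1 [hrq]
    field_simp
  -- integrality of `r.den * s` and `r.den * t`
  have e1 : (((σ * (r.num ^ 2 - (r.den : ℤ) ^ 2) : ℤ)) : ℚ) = (d : ℚ) * ((r.den : ℚ) * s) ^ 2 := by
    push_cast
    have : (σ : ℚ) * ((r.num : ℚ) ^ 2 - (r.den : ℚ) ^ 2) =
        (σ : ℚ) * ((x - 1) * (r.den : ℚ) ^ 2) := by rw [← hxq]; ring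
    rw [this, hx1]
    push_cast
    linear_combination ((d : ℚ) * s ^ 2 * (r.den : ℚ) ^ 2) * hσ2Q
  have e2 : (((σ * (r.num ^ 2 - 81 * (r.den : ℤ) ^ 2) : ℤ)) : ℚ) =
      (d : ℚ) * ((r.den : ℚ) * t) ^ 2 := by
    push_cast
    have : (σ : ℚ) * ((r.num : ℚ) ^ 2 - 81 * (r.den : ℚ) ^ 2) =
        (σ : ℚ) * ((x - 81) * (r.den : ℚ) ^ 2) := by rw [← hxq]; ring
    rw [this, hx81]
    push_cast
    linear_combination ((d : ℚ) * t ^ 2 * (r.den : ℚ) ^ 2) * hσ2Q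
  obtain ⟨B, hB⟩ := h27_int_of_d_sq d hd _ _ e1
  obtain ⟨C, hC⟩ := h27_int_of_d_sq d hd _ _ e2
  have hB0 : B ≠ 0 := by
    intro h0
    rw [h0] at hB
    have : (r.den : ℚ) * s ≠ 0 := mul_ne_zero hdenQ hs
    exact this (by simpa using hB)
  have hC0 : C ≠ 0 := by
    intro h0
    rw [h0] at hC
    have : (r.den : ℚ) * t ≠ 0 := mul_ne_zero hdenQ ht
    exact this (by simpa using hC)
  have r1 : σ * (r.num ^ 2 - (r.den : ℤ) ^ 2) = d * B ^ 2 := by
    have : (((σ * (r.num ^ 2 - (r.den : ℤ) ^ 2) : ℤ)) : ℚ) = ((d * B ^ 2 : ℤ) : ℚ) := by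
      rw [e1, hB]; push_cast; ring
    exact_mod_cast this
  have r2 : σ * (r.num ^ 2 - 81 * (r.den : ℤ) ^ 2) = d * C ^ 2 := by
    have : (((σ * (r.num ^ 2 - 81 * (r.den : ℤ) ^ 2) : ℤ)) : ℚ) = ((d * C ^ 2 : ℤ) : ℚ) := by
      rw [e2, hC]; push_cast; ring
    exact_mod_cast this
  refine ⟨|r.num|, (r.den : ℤ), |B|, |C|, abs_pos.mpr hnum0, by exact_mod_cast r.den_pos,
    abs_pos.mpr hB0, abs_pos.mpr hC0, ?_, ?_, ?_⟩
  · have hn : x.num = r.num ^ 2 := by rw [hx, Rat.num_pow]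
    have hdn : x.den = r.den ^ 2 := by rw [hx, Rat.den_pow]
    rw [hn, hdn, sq_abs]
    have : ((r.num ^ 2).natAbs : ℤ) = r.num ^ 2 := by
      rw [Int.natCast_natAbs, abs_of_nonneg (sq_nonneg _)]
    rw [this]
    push_cast
    ring
  · rw [sq_abs, sq_abs]; exact r1
  · rw [sq_abs, sq_abs]; exact r2

/-- One descent step: from a point with `y ≠ 0` to one of strictly smaller height. -/
theorem h27_descent_step (x y : ℚ) (h : y ^ 2 = x * (x - 1) * (x - 81)) (hy : y ≠ 0) :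
    ∃ x' y' : ℚ, y' ^ 2 = x' * (x' - 1) * (x' - 81) ∧ y' ≠ 0 ∧
      ((x'.num.natAbs : ℤ) + (x'.den : ℤ)) < (x.num.natAbs : ℤ) + (x.den : ℤ) := by
  obtain ⟨e, he, r, s, t, hr, hs, ht, hx, hx1, hx81⟩ := h25d_classes x y h hy
  rcases he with rfl | rfl | rfl | rfl
  · obtain ⟨a, n, b, c, ha, hn, hb, hc, hH, h1, h2⟩ :=
      h27_bridge x r s t 1 1 (Or.inl rfl) (Or.inl rfl) hr hs ht hx
        (by rw [hx1]; norm_num) (by rw [hx81]; norm_num)
    rw [hH]
    exact h27_step_pos1 a n b c ha hn hb hc (by linarith) (by linarith)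
  · obtain ⟨a, n, b, c, ha, hn, hb, hc, hH, h1, h2⟩ :=
      h27_bridge x r s t (-1) 1 (Or.inr rfl) (Or.inl rfl) hr hs ht hx
        (by rw [hx1]; norm_num) (by rw [hx81]; norm_num)
    rw [hH]
    exact h27_step_neg1 a n b c ha hn hb hc (by linarith) (by linarith)
  · obtain ⟨a, n, b, c, ha, hn, hb, hc, hH, h1, h2⟩ :=
      h27_bridge x r s t 1 5 (Or.inl rfl) (Or.inr rfl) hr hs ht hx
        (by rw [hx1]; norm_num) (by rw [hx81]; norm_num)
    rw [hH]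
    exact h27_step_pos5 a n b c ha hn hb hc (by linarith) (by linarith)
  · obtain ⟨a, n, b, c, ha, hn, hb, hc, hH, h1, h2⟩ :=
      h27_bridge x r s t (-1) 5 (Or.inr rfl) (Or.inr rfl) hr hs ht hx
        (by rw [hx1]; norm_num) (by rw [hx81]; norm_num)
    rw [hH]
    exact h27_step_neg5 a n b c ha hn hb hc (by linarith) (by linarith)

/-- No rational point with `y ≠ 0`, by strong induction on the height. -/
theorem h27_no_point : ∀ (N : ℕ) (x y : ℚ), y ^ 2 = x * (x - 1) * (x - 81) → y ≠ 0 →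
    x.num.natAbs + x.den = N → False := by
  intro N
  induction N using Nat.strong_induction_on with
  | _ N ih =>
    intro x y h hy hN
    obtain ⟨x', y', h', hy', hlt⟩ := h27_descent_step x y h hy
    have hlt' : x'.num.natAbs + x'.den < N := by
      rw [← hN]
      exact_mod_cast hlt
    exact ih _ hlt' x' y' h' hy' rfl

/-- **S51 slice P4.** The only rational points on `y² = x (x - 1) (x - 81)` have `y = 0`. -/
theorem h3s51_15a2 (x y : ℚ) (h : y ^ 2 = x * (x - 1) * (x - 81)) : y = 0 := by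
  by_contra hy
  exact h27_no_point _ x y h hy rfl

end Fermat.Agent.H3S51
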