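import Mathlib

/-!
# S51, parametrisation slice (helper2)

Pure algebra, no points and no Galois theory:

* `h2s51_param3`: a root `x₀ ∈ F` of the `3`-division polynomial `Ψ₃` of `W` (with `Δ ≠ 0`) gives
  `t ∈ Fˣ` with `c₄³ t = Δ (t + 27) (t + 3)³`          (`t = Δ / Ψ₂Sq(x₀)²`).
* `h2s51_param5`: two numbers `x₁ ≠ x₂` in an extension `K` with `x₁ + x₂, x₁ x₂ ∈ F`, related by
  the duplication formula in both directions, give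
  `s ∈ Fˣ` with `c₄³ s = Δ (s² + 10 s + 5)³`           (`s = Δ / ((x₁ + x₂)² - 4 x₁ x₂)³`).
-/

namespace Fermat.Agent.H2S51

open Polynomial WeierstrassCurve

section evals

variable {K : Type*} [CommRing K] (W : WeierstrassCurve K)

lemma h2s51_eval_Ψ₂Sq (x : K) :
    W.Ψ₂Sq.eval x = 4 * x ^ 3 + W.b₂ * x ^ 2 + 2 * W.b₄ * x + W.b₆ := by
  simp [Ψ₂Sq]

lemma h2s51_eval_Ψ₃ (x : K) :
    W.Ψ₃.eval x = 3 * x ^ 4 + W.b₂ * x ^ 3 + 3 * W.b₄ * x ^ 2 + 3 * W.b₆ * x + W.b₈ := by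
  simp [Ψ₃]

lemma h2s51_eval_Φ₂ (x : K) :
    (W.Φ 2).eval x = x ^ 4 - W.b₄ * x ^ 2 - 2 * W.b₆ * x - W.b₈ := by
  simp [Φ_two]

/-- `Φ₂ = X Ψ₂Sq - Ψ₃`. -/
lemma h2s51_Φ₂_eq (x : K) :
    (W.Φ 2).eval x = x * W.Ψ₂Sq.eval x - W.Ψ₃.eval x := by
  rw [h2s51_eval_Φ₂, h2s51_eval_Ψ₂Sq, h2s51_eval_Ψ₃]
  ring

/-- shifted `b₂`. -/
def h2s51_B2 (x : K) : K := W.b₂ + 12 * x

/-- shifted `b₄`. -/
def h2s51_B4 (x : K) : K := W.b₄ + W.b₂ * x + 6 * x ^ 2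

/-- the relation `4 b₈ = b₂ b₆ - b₄²` for the invariants shifted by `x`. -/
lemma h2s51_rel (x : K) :
    4 * W.Ψ₃.eval x = h2s51_B2 W x * W.Ψ₂Sq.eval x - h2s51_B4 W x ^ 2 := by
  rw [h2s51_eval_Ψ₂Sq, h2s51_eval_Ψ₃, h2s51_B2, h2s51_B4]
  linear_combination W.b_relation

/-- `Δ` in terms of the invariants shifted by `x`. -/
lemma h2s51_Δ_shift (x : K) :
    W.Δ = -h2s51_B2 W x ^ 2 * W.Ψ₃.eval x - 8 * h2s51_B4 W x ^ 3 - 27 * W.Ψ₂Sq.eval x ^ 2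
      + 9 * h2s51_B2 W x * h2s51_B4 W x * W.Ψ₂Sq.eval x := by
  rw [h2s51_eval_Ψ₂Sq, h2s51_eval_Ψ₃, h2s51_B2, h2s51_B4]
  simp only [WeierstrassCurve.Δ, WeierstrassCurve.b₂, WeierstrassCurve.b₄, WeierstrassCurve.b₆,
    WeierstrassCurve.b₈]
  ring

/-- `c₄` in terms of the invariants shifted by `x`. -/
lemma h2s51_c₄_shift (x : K) :
    W.c₄ = h2s51_B2 W x ^ 2 - 24 * h2s51_B4 W x := by
  rw [h2s51_B2, h2s51_B4]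
  simp only [WeierstrassCurve.c₄]
  ring

/-- Taylor expansion of `Ψ₂Sq` at `x`. -/
lemma h2s51_Ψ₂Sq_add (x d : K) :
    W.Ψ₂Sq.eval (x + d) =
      4 * d ^ 3 + h2s51_B2 W x * d ^ 2 + 2 * h2s51_B4 W x * d + W.Ψ₂Sq.eval x := by
  rw [h2s51_eval_Ψ₂Sq, h2s51_eval_Ψ₂Sq, h2s51_B2, h2s51_B4]
  ring

/-- Taylor expansion of `Ψ₃` at `x`. -/
lemma h2s51_Ψ₃_add (x d : K) :
    W.Ψ₃.eval (x + d) =
      3 * d ^ 4 + h2s51_B2 W x * d ^ 3 + 3 * h2s51_B4 W x * d ^ 2 + 3 * W.Ψ₂Sq.eval x * d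
        + W.Ψ₃.eval x := by
  rw [h2s51_eval_Ψ₃, h2s51_eval_Ψ₃, h2s51_eval_Ψ₂Sq, h2s51_B2, h2s51_B4]
  ring

end evals

section field

variable {K : Type*} [Field K] (W : WeierstrassCurve K)

/-- At a root of `Ψ₃` the polynomial `Ψ₂Sq` does not vanish (if `Δ ≠ 0`). -/
lemma h2s51_Ψ₂Sq_ne_zero_of_Ψ₃ (hΔ : W.Δ ≠ 0) (x : K) (h : W.Ψ₃.eval x = 0) :
    W.Ψ₂Sq.eval x ≠ 0 := by
  intro hP
  have h1 := h2s51_rel W x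
  rw [h, hP] at h1
  have hB4 : h2s51_B4 W x = 0 := by
    have : h2s51_B4 W x ^ 2 = 0 := by linear_combination h1
    exact pow_eq_zero_iff (two_ne_zero) |>.mp this
  apply hΔ
  rw [h2s51_Δ_shift W x, h, hP, hB4]
  ring

/-- the `3`-isogeny parametrisation over one field, with the explicit value of `t`. -/
lemma h2s51_param3_explicit (hΔ : W.Δ ≠ 0) (x : K) (h : W.Ψ₃.eval x = 0) :
    W.c₄ ^ 3 * (W.Δ / W.Ψ₂Sq.eval x ^ 2) =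
      W.Δ * (W.Δ / W.Ψ₂Sq.eval x ^ 2 + 27) * (W.Δ / W.Ψ₂Sq.eval x ^ 2 + 3) ^ 3 := by
  have hP := h2s51_Ψ₂Sq_ne_zero_of_Ψ₃ W hΔ x h
  have h1 := h2s51_rel W x
  rw [h] at h1
  have hD := h2s51_Δ_shift W x
  rw [h] at hD
  have hc := h2s51_c₄_shift W x
  set P := W.Ψ₂Sq.eval x with hPdef
  set B2 := h2s51_B2 W x
  set B4 := h2s51_B4 W x
  have f1 : B2 * P = B4 ^ 2 := by linear_combination -h1
  have hD' : W.Δ = B4 ^ 3 - 27 * P ^ 2 := by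
    rw [hD]; linear_combination 9 * B4 * f1
  have hc4 : W.c₄ * P ^ 2 = B4 * (B4 ^ 3 - 24 * P ^ 2) := by
    rw [hc]; linear_combination (B2 * P + B4 ^ 2) * f1
  have key : W.c₄ ^ 3 * P ^ 6 = (W.Δ + 27 * P ^ 2) * (W.Δ + 3 * P ^ 2) ^ 3 := by
    have h3 : (W.c₄ * P ^ 2) ^ 3 = (B4 * (B4 ^ 3 - 24 * P ^ 2)) ^ 3 := by rw [hc4]
    rw [hD']
    linear_combination h3
  have hP2 : P ^ 2 ≠ 0 := pow_ne_zero _ hP
  field_simp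
  linear_combination key

theorem h2s51_param3 {F : Type*} [Field F] (W : WeierstrassCurve F) (hΔ : W.Δ ≠ 0)
    (x₀ : F) (h : W.Ψ₃.eval x₀ = 0) :
    ∃ t : F, t ≠ 0 ∧ W.c₄ ^ 3 * t = W.Δ * (t + 27) * (t + 3) ^ 3 :=
  ⟨W.Δ / W.Ψ₂Sq.eval x₀ ^ 2,
    div_ne_zero hΔ (pow_ne_zero _ (h2s51_Ψ₂Sq_ne_zero_of_Ψ₃ W hΔ x₀ h)),
    h2s51_param3_explicit W hΔ x₀ h⟩

/-- the `5`-isogeny parametrisation over one field: the key identity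
`c₄ δ¹⁰ = Δ² + 10 Δ δ⁶ + 5 δ¹²`, `δ = x₂ - x₁`. -/
lemma h2s51_param5_key (hΔ : W.Δ ≠ 0) (x₁ x₂ : K) (hne : x₁ ≠ x₂)
    (h₁₂ : x₂ * W.Ψ₂Sq.eval x₁ = (W.Φ 2).eval x₁)
    (h₂₁ : x₁ * W.Ψ₂Sq.eval x₂ = (W.Φ 2).eval x₂) :
    W.c₄ * (x₂ - x₁) ^ 10 =
      W.Δ ^ 2 + 10 * W.Δ * (x₂ - x₁) ^ 6 + 5 * (x₂ - x₁) ^ 12 := by
  have hδ : x₂ - x₁ ≠ 0 := sub_ne_zero.mpr (Ne.symm hne)
  have h1 := h2s51_rel W x₁
  have hD := h2s51_Δ_shift W x₁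
  have hc := h2s51_c₄_shift W x₁
  have hx₂ : x₂ = x₁ + (x₂ - x₁) := by ring
  have hP2 := h2s51_Ψ₂Sq_add W x₁ (x₂ - x₁)
  have hQ2 := h2s51_Ψ₃_add W x₁ (x₂ - x₁)
  rw [← hx₂] at hP2 hQ2
  rw [h2s51_Φ₂_eq] at h₁₂ h₂₁
  set δ := x₂ - x₁ with hδdef
  set B6 := W.Ψ₂Sq.eval x₁
  set B8 := W.Ψ₃.eval x₁
  set B2 := h2s51_B2 W x₁
  set B4 := h2s51_B4 W x₁
  -- r1 : δ B6 = - B8
  have r1 : B8 = -(δ * B6) := by
    rw [hδdef]; linear_combination h₁₂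
  -- r2' : δ (δ³ - B4 δ - B6) = 0
  have r2' : δ * (δ ^ 3 - B4 * δ - B6) = 0 := by
    have e1 : (x₂ - x₁) * W.Ψ₂Sq.eval x₂ = W.Ψ₃.eval x₂ := by linear_combination -h₂₁
    rw [hP2, hQ2, ← hδdef] at e1
    linear_combination e1 + r1
  have r2 : B6 = δ ^ 3 - B4 * δ := by
    have := (mul_eq_zero.mp r2').resolve_left hδ
    linear_combination -this
  have hB6 : B6 ≠ 0 := by
    intro h0
    have h8 : B8 = 0 := by rw [r1, h0]; ring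
    have hB4 : B4 = 0 := by
      have : B4 ^ 2 = 0 := by
        rw [h8, h0] at h1; linear_combination h1
      exact pow_eq_zero_iff (two_ne_zero) |>.mp this
    apply hΔ
    rw [hD, h8, h0, hB4]; ring
  have hB4 : B4 = (δ ^ 3 - B6) / δ := by
    field_simp
    linear_combination r2
  have hB2 : B2 = (B4 ^ 2 + 4 * B8) / B6 := by
    field_simp
    linear_combination -h1
  rw [hc, hD, hB2, r1, hB4]
  field_simp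
  ring

/-- the `5`-isogeny parametrisation over one field, explicit `s = Δ / δ⁶`. -/
lemma h2s51_param5_explicit (hΔ : W.Δ ≠ 0) (x₁ x₂ : K) (hne : x₁ ≠ x₂)
    (h₁₂ : x₂ * W.Ψ₂Sq.eval x₁ = (W.Φ 2).eval x₁)
    (h₂₁ : x₁ * W.Ψ₂Sq.eval x₂ = (W.Φ 2).eval x₂) :
    W.c₄ ^ 3 * (W.Δ / (x₂ - x₁) ^ 6) =
      W.Δ * ((W.Δ / (x₂ - x₁) ^ 6) ^ 2 + 10 * (W.Δ / (x₂ - x₁) ^ 6) + 5) ^ 3 := by
  have hδ : x₂ - x₁ ≠ 0 := sub_ne_zero.mpr (Ne.symm hne)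
  have key := h2s51_param5_key W hΔ x₁ x₂ hne h₁₂ h₂₁
  obtain ⟨s, hs⟩ : ∃ s : K, s = W.Δ / (x₂ - x₁) ^ 6 := ⟨_, rfl⟩
  rw [← hs]
  have hs' : s * (x₂ - x₁) ^ 6 = W.Δ := by
    rw [hs]; exact div_mul_cancel₀ _ (pow_ne_zero 6 hδ)
  have h2 : (s ^ 2 + 10 * s + 5) * (x₂ - x₁) ^ 2 = W.c₄ := by
    have : (s ^ 2 + 10 * s + 5) * (x₂ - x₁) ^ 2 * (x₂ - x₁) ^ 10 = W.c₄ * (x₂ - x₁) ^ 10 := by
      rw [key, ← hs']; ring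
    exact mul_right_cancel₀ (pow_ne_zero 10 hδ) this
  rw [← h2, ← hs']
  ring

theorem h2s51_param5 {F K : Type*} [Field F] [Field K] [Algebra F K]
    (W : WeierstrassCurve F) (hΔ : W.Δ ≠ 0) (x₁ x₂ : K) (hne : x₁ ≠ x₂)
    (e₁ e₂ : F) (he₁ : algebraMap F K e₁ = x₁ + x₂) (he₂ : algebraMap F K e₂ = x₁ * x₂)
    (h₁₂ : x₂ * (W.map (algebraMap F K)).Ψ₂Sq.eval x₁ = ((W.map (algebraMap F K)).Φ 2).eval x₁)
    (h₂₁ : x₁ * (W.map (algebraMap F K)).Ψ₂Sq.eval x₂ = ((W.map (algebraMap F K)).Φ 2).eval x₂) :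
    ∃ s : F, s ≠ 0 ∧ W.c₄ ^ 3 * s = W.Δ * (s ^ 2 + 10 * s + 5) ^ 3 := by
  have hinj : Function.Injective (algebraMap F K) := (algebraMap F K).injective
  have hΔK : (W.map (algebraMap F K)).Δ ≠ 0 := by
    rw [WeierstrassCurve.map_Δ]
    exact fun h0 => hΔ (hinj (by rw [h0, map_zero]))
  have hδ : x₂ - x₁ ≠ 0 := sub_ne_zero.mpr (Ne.symm hne)
  have hD : algebraMap F K (e₁ ^ 2 - 4 * e₂) = (x₂ - x₁) ^ 2 := by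
    rw [map_sub, map_pow, map_mul, he₁, he₂, map_ofNat]; ring
  have hDne : e₁ ^ 2 - 4 * e₂ ≠ 0 := by
    intro h0
    rw [h0, map_zero] at hD
    exact pow_ne_zero 2 hδ hD.symm
  have hs : algebraMap F K (W.Δ / (e₁ ^ 2 - 4 * e₂) ^ 3) =
      (W.map (algebraMap F K)).Δ / (x₂ - x₁) ^ 6 := by
    rw [map_div₀, map_pow, hD, WeierstrassCurve.map_Δ]; ring
  refine ⟨W.Δ / (e₁ ^ 2 - 4 * e₂) ^ 3, div_ne_zero hΔ (pow_ne_zero _ hDne), hinj ?_⟩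
  have := h2s51_param5_explicit (W.map (algebraMap F K)) hΔK x₁ x₂ hne h₁₂ h₂₁
  rw [WeierstrassCurve.map_c₄, WeierstrassCurve.map_Δ] at this
  rw [WeierstrassCurve.map_Δ] at hs
  simp only [map_mul, map_pow, map_add, map_ofNat, hs]
  exact this

end field

end Fermat.Agent.H2S51
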