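/-
S51 slice "Red3" (helper11): if the mod-3 representation of an integral Weierstrass curve with
`Δ ≠ 0` is not irreducible, then `Ψ₃` has a rational root.

Built on helper13's `Torsion3.lean` (curve side) and helper3's `Galois.lean` (line lemma,
counting lemma, fixed field of `Gal(Q̄/ℚ)`).
-/
import Mathlib
import Fermat.Prelude.Def_FLTPrelim_ModularRep
import Fermat.Agent.S51.Torsion3
import Fermat.Agent.S51.Galois

set_option autoImplicit false
set_option linter.unusedSectionVars false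
set_option linter.unusedVariables false
set_option linter.style.haveILetI false

namespace Fermat.Agent.H11S51

open WeierstrassCurve WeierstrassCurve.Affine Polynomial
open Fermat.Agent.H3S51

section General

variable {K : Type*} [Field K] [DecidableEq K] (E : WeierstrassCurve.Affine K)

/-- evaluation of `Ψ₃` -/
theorem h11s51_eval_Ψ₃ (x : K) :
    (WeierstrassCurve.Ψ₃ E).eval x =
      3 * x ^ 4 + E.b₂ * x ^ 3 + 3 * E.b₄ * x ^ 2 + 3 * E.b₆ * x + E.b₈ := by
  simp [WeierstrassCurve.Ψ₃]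

/-- `ℕ`-multiples of a point killed by `3` are `0`, `P` or `-P`. -/
theorem h11s51_nsmul_cases {G : Type*} [AddCommGroup G] (P : G) (h3 : (3 : ℕ) • P = 0) (k : ℕ) :
    k • P = 0 ∨ k • P = P ∨ k • P = -P := by
  have hk : k • P = (k % 3) • P := by
    conv_lhs => rw [← Nat.div_add_mod k 3]
    rw [add_smul, mul_comm, mul_smul, h3, smul_zero, zero_add]
  have hlt : k % 3 < 3 := Nat.mod_lt _ (by norm_num)
  rw [hk]
  interval_cases (k % 3)
  · left; simp
  · right; left; simp
  · right; right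
    have : (3 : ℕ) • P = (2 : ℕ) • P + P := by
      rw [show (3 : ℕ) = 2 + 1 by norm_num, add_smul, one_smul]
    rw [this] at h3
    exact eq_neg_of_add_eq_zero_left h3

end General

/-- **Red3.** If the mod-3 representation of `W` is not irreducible, `Ψ₃` has a rational root. -/
theorem h11s51_red3 (W : WeierstrassCurve ℤ) (hΔ : W.Δ ≠ 0) (h : ¬ W.ModRepIsIrreducible 3) :
    ∃ x₀ : ℚ, (W.map (Int.castRingHom ℚ)).Ψ₃.eval x₀ = 0 := by
  classical
  haveI : Fact (Nat.Prime 3) := ⟨Nat.prime_three⟩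
  set WQ : WeierstrassCurve ℚ := W.map (Int.castRingHom ℚ) with hWQ
  set E : WeierstrassCurve.Affine (AlgebraicClosure ℚ) := (WQ⁄(AlgebraicClosure ℚ)) with hE
  -- discriminant
  have hΔQ : WQ.Δ ≠ 0 := by
    rw [hWQ, WeierstrassCurve.map_Δ]
    simpa using hΔ
  have hΔE : E.Δ ≠ 0 := by
    change (WQ.map (algebraMap ℚ (AlgebraicClosure ℚ))).Δ ≠ 0
    rw [WeierstrassCurve.map_Δ]
    exact fun h0 => hΔQ ((algebraMap ℚ (AlgebraicClosure ℚ)).injective (by simpa using h0))
  -- counting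
  have hΨne : WeierstrassCurve.Ψ₃ E ≠ 0 := WeierstrassCurve.Ψ₃_ne_zero E (by norm_num)
  obtain ⟨hfin, hcard⟩ := h3s51_card_torsion E 3 (WeierstrassCurve.Ψ₃ E) hΨne
    (fun x y hns h3 => by rw [h11s51_eval_Ψ₃]; exact h13s51_three_root E hns h3)
  have hcard' : Nat.card (Submodule.torsionBy ℤ E.Point ((3 : ℕ) : ℤ)) < 3 ^ 3 := by
    have := WeierstrassCurve.natDegree_Ψ₃_le E
    omega
  -- nontriviality
  obtain ⟨P₀, hP₀, hP₀3⟩ := h13s51_exists_three E hΔE
  have hnt : Nontrivial (Submodule.torsionBy ℤ E.Point ((3 : ℕ) : ℤ)) := by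
    refine ⟨⟨⟨P₀, ?_⟩, 0, ?_⟩⟩
    · rw [Submodule.mem_torsionBy_iff, natCast_zsmul]
      exact hP₀3
    · intro h0
      exact hP₀ (congrArg Subtype.val h0)
  -- unfold the hypothesis
  have h' : ¬ (Nontrivial (Submodule.torsionBy ℤ E.Point ((3 : ℕ) : ℤ)) ∧
      ∀ N : Submodule (ZMod 3) (Submodule.torsionBy ℤ E.Point ((3 : ℕ) : ℤ)),
        Affine.Point.IsGaloisStable ℚ N → N = ⊥ ∨ N = ⊤) := h
  push Not at h'
  obtain ⟨N, hstab, hbot, htop⟩ := h' hnt
  obtain ⟨P, hPN, hP0, hline⟩ := h3s51_line (p := 3) hcard' N hbot htop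
  -- coordinates of `P`
  have hP3 : (3 : ℕ) • (P : E.Point) = 0 := by
    have := (Submodule.mem_torsionBy_iff _ _).mp P.2
    rwa [natCast_zsmul] at this
  have hPne : (P : E.Point) ≠ 0 := fun h0 => hP0 (Subtype.ext h0)
  obtain ⟨x, y, hns, hxy⟩ : ∃ (x y : AlgebraicClosure ℚ) (hns : E.Nonsingular x y),
      (P : E.Point) = Affine.Point.some x y hns := by
    rcases hPc : (P : E.Point) with _ | ⟨x, y, hns⟩
    · exact absurd hPc hPne
    · exact ⟨x, y, hns, rfl⟩
  -- `x` is Galois-fixed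
  have hfix : ∀ σ : AlgebraicClosure ℚ ≃ₐ[ℚ] AlgebraicClosure ℚ, σ x = x := by
    intro σ
    have hσN : σ • P ∈ N := hstab σ P hPN
    obtain ⟨k, hk⟩ := hline _ hσN
    have hk' : (σ • (P : E.Point)) = k • (P : E.Point) := by
      have h1 : ((σ • P : Submodule.torsionBy ℤ E.Point ((3 : ℕ) : ℤ)) : E.Point) =
          ((k • P : Submodule.torsionBy ℤ E.Point ((3 : ℕ) : ℤ)) : E.Point) :=
        congrArg Subtype.val hk
      exact h1.trans (by simp)
    obtain ⟨hns', hσ⟩ := h3s51_smul_some (W' := WQ) (S := ℚ) σ hns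
    rw [hxy] at hk'
    rw [hσ] at hk'
    rcases h11s51_nsmul_cases (P : E.Point) hP3 k with h0 | h1 | h2
    · rw [hxy] at h0
      rw [h0] at hk'
      exact absurd hk' (Affine.Point.some_ne_zero hns')
    · rw [hxy] at h1
      rw [h1] at hk'
      injection hk' with hx _
    · rw [hxy] at h2
      rw [h2, Affine.Point.neg_some] at hk'
      injection hk' with hx _
  obtain ⟨q, hq⟩ := h3s51_fixed x hfix
  refine ⟨q, ?_⟩
  have hroot : (WeierstrassCurve.Ψ₃ E).eval x = 0 := by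
    rw [h11s51_eval_Ψ₃]
    exact h13s51_three_root E hns (by rw [← hxy]; exact hP3)
  have hmap : WeierstrassCurve.Ψ₃ E = (WeierstrassCurve.Ψ₃ WQ).map (algebraMap ℚ (AlgebraicClosure ℚ)) := by
    change WeierstrassCurve.Ψ₃ (WQ.map (algebraMap ℚ (AlgebraicClosure ℚ))) = _
    rw [WeierstrassCurve.map_Ψ₃]
  rw [hmap, ← hq, Polynomial.eval_map_algebraMap, Polynomial.aeval_algebraMap_apply] at hroot
  exact (algebraMap ℚ (AlgebraicClosure ℚ)).injective (by simpa using hroot)

end Fermat.Agent.H11S51
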