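/-
S51 slice Red5 (helper3): if the mod-5 representation of `W` is not irreducible, the curve has a
Galois-stable line in `E[5]`, hence rational `e₁ = x₁ + x₂`, `e₂ = x₁ x₂` for the two
`x`-coordinates of that line, related by the duplication formula.
-/
import Mathlib
import Fermat.Prelude.Def_FLTPrelim_GaloisRep
import Fermat.Prelude.Def_FLTPrelim_ModularRep
import Fermat.Agent.S51.Galois
import Fermat.Agent.S51.Torsion5

set_option autoImplicit false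
set_option linter.unusedSectionVars false
set_option linter.style.haveILetI false

namespace Fermat.Agent.H3S51

open WeierstrassCurve Polynomial

section xc
open WeierstrassCurve.Affine
variable {K : Type*} [Field K] [DecidableEq K] (E : Affine K)

/-- the `x`-coordinate of a point (`0` at infinity). -/
def h3s51_xc : E.Point → K
  | .zero => 0
  | .some x _ _ => x

theorem h3s51_xc_some {x y : K} (h : E.Nonsingular x y) :
    h3s51_xc E (Point.some x y h) = x := rfl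

theorem h3s51_xc_neg (P : E.Point) : h3s51_xc E (-P) = h3s51_xc E P := by
  cases P <;> rfl

/-- multiples of a 5-torsion point only depend on the residue mod 5. -/
theorem h3s51_nsmul_mod {A : Type*} [AddCommGroup A] {P : A} (h5 : (5 : ℕ) • P = 0) (k : ℕ) :
    k • P = (k % 5) • P := by
  conv_lhs => rw [← Nat.div_add_mod k 5]
  rw [add_smul, mul_comm, mul_smul, h5, smul_zero, zero_add]

theorem h3s51_xc_mul {P : E.Point} (h5 : (5 : ℕ) • P = 0) (_hP : P ≠ 0) (k : ℕ)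
    (hk : k • P ≠ 0) :
    (h3s51_xc E (k • P) = h3s51_xc E P ∧
        h3s51_xc E ((2 : ℕ) • (k • P)) = h3s51_xc E ((2 : ℕ) • P)) ∨
      (h3s51_xc E (k • P) = h3s51_xc E ((2 : ℕ) • P) ∧
        h3s51_xc E ((2 : ℕ) • (k • P)) = h3s51_xc E P) := by
  have h4 : (4 : ℕ) • P = -P := by
    have : (4 : ℕ) • P + P = (5 : ℕ) • P := by abel
    rw [h5] at this
    exact eq_neg_of_add_eq_zero_left this
  have h3 : (3 : ℕ) • P = -((2 : ℕ) • P) := by
    have : (3 : ℕ) • P + (2 : ℕ) • P = (5 : ℕ) • P := by abel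
    rw [h5] at this
    exact eq_neg_of_add_eq_zero_left this
  have h6 : (6 : ℕ) • P = P := by
    have : (6 : ℕ) • P = (5 : ℕ) • P + P := by abel
    rw [this, h5, zero_add]
  have h8 : (8 : ℕ) • P = -((2 : ℕ) • P) := by
    have : (8 : ℕ) • P = (5 : ℕ) • P + (3 : ℕ) • P := by abel
    rw [this, h5, zero_add, h3]
  rw [h3s51_nsmul_mod h5 k] at hk ⊢
  have hlt : k % 5 < 5 := Nat.mod_lt _ (by norm_num)
  generalize k % 5 = r at hk hlt ⊢
  rw [smul_smul]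
  interval_cases r
  · exact absurd (zero_smul ℕ P) hk
  · left; simp
  · refine Or.inr ⟨rfl, ?_⟩
    show h3s51_xc E ((4 : ℕ) • P) = _
    rw [h4, h3s51_xc_neg]
  · refine Or.inr ⟨by rw [h3, h3s51_xc_neg], ?_⟩
    show h3s51_xc E ((6 : ℕ) • P) = _
    rw [h6]
  · refine Or.inl ⟨by rw [h4, h3s51_xc_neg], ?_⟩
    show h3s51_xc E ((8 : ℕ) • P) = _
    rw [h8, h3s51_xc_neg]

end xc

section galois
open WeierstrassCurve.Affine
variable {R : Type*} {S : Type*} {K : Type*} [CommRing R] [CommRing S] [Field K]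
  [DecidableEq K] {W' : Affine R} [Algebra R S] [Algebra R K] [Algebra S K]
  [IsScalarTower R S K]

theorem h3s51_xc_smul (σ : K ≃ₐ[S] K) (P : (W'⁄K).Point) :
    h3s51_xc (W'⁄K) (σ • P) = σ (h3s51_xc (W'⁄K) P) := by
  cases P with
  | zero => exact (map_zero σ).symm
  | some x y h => rfl

theorem h3s51_smul_eq_zero (σ : K ≃ₐ[S] K) (P : (W'⁄K).Point) (h : σ • P = 0) : P = 0 := by
  cases P with
  | zero => rfl
  | some x y hxy => exact absurd h (Point.some_ne_zero _)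

end galois

end Fermat.Agent.H3S51

namespace Fermat.Agent.H3S51

open WeierstrassCurve Polynomial

section main
open WeierstrassCurve.Affine

/-- `Red5`, for a curve over `ℚ`. -/
theorem h3s51_red5_aux (Wq : WeierstrassCurve ℚ) (hΔ : Wq.Δ ≠ 0)
    (h : ¬ Affine.Point.GaloisRepIsIrreducible (K := AlgebraicClosure ℚ) ℚ Wq 5) :
    ∃ (x₁ x₂ : AlgebraicClosure ℚ) (e₁ e₂ : ℚ), x₁ ≠ x₂ ∧
      algebraMap ℚ (AlgebraicClosure ℚ) e₁ = x₁ + x₂ ∧
      algebraMap ℚ (AlgebraicClosure ℚ) e₂ = x₁ * x₂ ∧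
      x₂ * (Wq.map (algebraMap ℚ (AlgebraicClosure ℚ))).Ψ₂Sq.eval x₁
        = ((Wq.map (algebraMap ℚ (AlgebraicClosure ℚ))).Φ 2).eval x₁ ∧
      x₁ * (Wq.map (algebraMap ℚ (AlgebraicClosure ℚ))).Ψ₂Sq.eval x₂
        = ((Wq.map (algebraMap ℚ (AlgebraicClosure ℚ))).Φ 2).eval x₂ := by
  set E : Affine (AlgebraicClosure ℚ) := Affine.baseChange Wq (AlgebraicClosure ℚ) with hE
  have hΔE : E.Δ ≠ 0 := by
    have h1 : E.Δ = algebraMap ℚ (AlgebraicClosure ℚ) Wq.Δ := by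
      simp [hE, Affine.baseChange, WeierstrassCurve.baseChange, WeierstrassCurve.map_Δ]
    rw [h1]
    exact fun h0 => hΔ ((algebraMap ℚ (AlgebraicClosure ℚ)).injective (by rw [h0, map_zero]))
  -- nontriviality of E[5]
  have hnt : Nontrivial (Submodule.torsionBy ℤ E.Point ((5 : ℕ) : ℤ)) := by
    obtain ⟨P, hP0, hP5⟩ := h29s51_exists_five E hΔE
    have hmem : P ∈ Submodule.torsionBy ℤ E.Point ((5 : ℕ) : ℤ) := by
      rw [Submodule.mem_torsionBy_iff, natCast_zsmul]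
      exact hP5
    exact ⟨⟨⟨P, hmem⟩, 0, fun h => hP0 (congrArg Subtype.val h)⟩⟩
  unfold Affine.Point.GaloisRepIsIrreducible at h
  push Not at h
  obtain ⟨N, hstab, hbot, htop⟩ := h hnt
  -- cardinality
  obtain ⟨F, hF0, hFdeg, hFroot⟩ := h29s51_five_poly E
  obtain ⟨hfin, hcard⟩ := h3s51_card_torsion E 5 F hF0 hFroot
  have hcard' : Nat.card (Submodule.torsionBy ℤ E.Point ((5 : ℕ) : ℤ)) < 5 ^ 3 := by
    have : 2 * F.natDegree + 1 ≤ 33 := by omega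
    omega
  haveI : Fact (Nat.Prime 5) := ⟨by norm_num⟩
  haveI := hfin
  obtain ⟨P, hPN, hP0, hPline⟩ := h3s51_line (p := 5) hcard' N hbot htop
  -- the point `P`
  obtain ⟨P₀, hP₀mem⟩ := P
  have hP₀5 : (5 : ℕ) • P₀ = 0 := by
    have := (Submodule.mem_torsionBy_iff _ _).mp hP₀mem
    rwa [natCast_zsmul] at this
  have hP₀0 : P₀ ≠ 0 := fun h0 => hP0 (Subtype.ext h0)
  -- Galois action on the line
  have hgal : ∀ σ : AlgebraicClosure ℚ ≃ₐ[ℚ] AlgebraicClosure ℚ,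
      ∃ k : ℕ, σ • P₀ = k • P₀ := by
    intro σ
    obtain ⟨k, hk⟩ := hPline _ (hstab σ _ hPN)
    refine ⟨k, ?_⟩
    have h' := congrArg Subtype.val hk
    simp only [AddSubmonoidClass.coe_nsmul] at h'
    exact h'
  have hperm : ∀ σ : AlgebraicClosure ℚ ≃ₐ[ℚ] AlgebraicClosure ℚ,
      (σ (h3s51_xc E P₀) = h3s51_xc E P₀ ∧
          σ (h3s51_xc E ((2 : ℕ) • P₀)) = h3s51_xc E ((2 : ℕ) • P₀)) ∨
        (σ (h3s51_xc E P₀) = h3s51_xc E ((2 : ℕ) • P₀) ∧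
          σ (h3s51_xc E ((2 : ℕ) • P₀)) = h3s51_xc E P₀) := by
    intro σ
    obtain ⟨k, hk⟩ := hgal σ
    have hk0 : k • P₀ ≠ 0 := by
      rw [← hk]
      intro h0
      exact hP₀0 (h3s51_smul_eq_zero σ P₀ h0)
    have h2 : σ • ((2 : ℕ) • P₀) = (2 : ℕ) • (k • P₀) := by
      rw [← hk]
      exact map_nsmul (Affine.Point.map (W' := Wq) σ.toAlgHom) 2 P₀
    have := h3s51_xc_mul E hP₀5 hP₀0 k hk0
    rw [← h2, ← hk, h3s51_xc_smul, h3s51_xc_smul] at this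
    exact this
  -- coordinates
  cases hP₀ : P₀ with
  | zero => exact absurd hP₀ hP₀0
  | some x₁ y₁ h₁ =>
    rw [hP₀] at hP₀5 hperm
    obtain ⟨x₂, y₂, h₂, h2P, hne, rel₁, rel₂⟩ := h29s51_five_data E h₁ hP₀5
    rw [h2P] at hperm
    simp only [h3s51_xc_some] at hperm
    have hsum : ∀ σ : AlgebraicClosure ℚ ≃ₐ[ℚ] AlgebraicClosure ℚ, σ (x₁ + x₂) = x₁ + x₂ := by
      intro σ
      rcases hperm σ with ⟨h1, h2⟩ | ⟨h1, h2⟩
      · rw [map_add, h1, h2]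
      · rw [map_add, h1, h2, add_comm]
    have hprod : ∀ σ : AlgebraicClosure ℚ ≃ₐ[ℚ] AlgebraicClosure ℚ, σ (x₁ * x₂) = x₁ * x₂ := by
      intro σ
      rcases hperm σ with ⟨h1, h2⟩ | ⟨h1, h2⟩
      · rw [map_mul, h1, h2]
      · rw [map_mul, h1, h2, mul_comm]
    obtain ⟨e₁, he₁⟩ := h3s51_fixed _ hsum
    obtain ⟨e₂, he₂⟩ := h3s51_fixed _ hprod
    refine ⟨x₁, x₂, e₁, e₂, hne, he₁, he₂, ?_, ?_⟩
    · have e1 : (Wq.map (algebraMap ℚ (AlgebraicClosure ℚ))).Ψ₂Sq.eval x₁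
          = 4 * x₁ ^ 3 + E.b₂ * x₁ ^ 2 + 2 * E.b₄ * x₁ + E.b₆ := by
        simp [Ψ₂Sq, hE, Affine.baseChange, WeierstrassCurve.baseChange]
      have e2 : ((Wq.map (algebraMap ℚ (AlgebraicClosure ℚ))).Φ 2).eval x₁
          = x₁ ^ 4 - E.b₄ * x₁ ^ 2 - 2 * E.b₆ * x₁ - E.b₈ := by
        simp [Φ_two, hE, Affine.baseChange, WeierstrassCurve.baseChange]
      rw [e1, e2]
      exact rel₁
    · have e1 : (Wq.map (algebraMap ℚ (AlgebraicClosure ℚ))).Ψ₂Sq.eval x₂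
          = 4 * x₂ ^ 3 + E.b₂ * x₂ ^ 2 + 2 * E.b₄ * x₂ + E.b₆ := by
        simp [Ψ₂Sq, hE, Affine.baseChange, WeierstrassCurve.baseChange]
      have e2 : ((Wq.map (algebraMap ℚ (AlgebraicClosure ℚ))).Φ 2).eval x₂
          = x₂ ^ 4 - E.b₄ * x₂ ^ 2 - 2 * E.b₆ * x₂ - E.b₈ := by
        simp [Φ_two, hE, Affine.baseChange, WeierstrassCurve.baseChange]
      rw [e1, e2]
      exact rel₂

/-- **Red5.** -/
theorem h3s51_red5 (W : WeierstrassCurve ℤ) (hΔ : W.Δ ≠ 0) (h : ¬ W.ModRepIsIrreducible 5) :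
    ∃ (x₁ x₂ : AlgebraicClosure ℚ) (e₁ e₂ : ℚ), x₁ ≠ x₂ ∧
      algebraMap ℚ (AlgebraicClosure ℚ) e₁ = x₁ + x₂ ∧
      algebraMap ℚ (AlgebraicClosure ℚ) e₂ = x₁ * x₂ ∧
      x₂ * ((W.map (Int.castRingHom ℚ)).map (algebraMap ℚ (AlgebraicClosure ℚ))).Ψ₂Sq.eval x₁
        = (((W.map (Int.castRingHom ℚ)).map (algebraMap ℚ (AlgebraicClosure ℚ))).Φ 2).eval x₁ ∧
      x₁ * ((W.map (Int.castRingHom ℚ)).map (algebraMap ℚ (AlgebraicClosure ℚ))).Ψ₂Sq.eval x₂
        = (((W.map (Int.castRingHom ℚ)).map (algebraMap ℚ (AlgebraicClosure ℚ))).Φ 2).eval x₂ := by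
  refine h3s51_red5_aux (W.map (Int.castRingHom ℚ)) ?_ h
  rw [WeierstrassCurve.map_Δ]
  intro h0
  apply hΔ
  have h1 : ((W.Δ : ℤ) : ℚ) = 0 := h0
  exact_mod_cast h1

end main

end Fermat.Agent.H3S51
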