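import Mathlib

/-!
# S51, slice P4 (part 1): the 2-descent classes on `y² = x (x - 1) (x - 81)`  (curve 15a2)

For a rational point with `y ≠ 0`, the triple `(x, x - 1, x - 81)` is, modulo rational squares,
one of `(1, e, e)` with `e ∈ {1, -1, 5, -5}` (the classes of the four 2-torsion points).
Helper names are prefixed `h25d_`.
-/

set_option autoImplicit false

namespace Fermat.Agent.H3S51

/-- A rational number whose square is an integer is an integer. -/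
theorem h25d_int_of_sq_int (K : ℤ) (r : ℚ) (h : (K : ℚ) = r ^ 2) : ∃ k : ℤ, r = k := by
  have h1 : IsSquare ((K : ℤ) : ℚ) := ⟨r, by rw [h]; ring⟩
  rw [Rat.isSquare_intCast_iff] at h1
  obtain ⟨k, hk⟩ := h1
  have h2 : r ^ 2 = (k : ℚ) ^ 2 := by
    rw [← h, hk]; push_cast; ring
  rcases sq_eq_sq_iff_eq_or_eq_neg.mp h2 with h3 | h3
  · exact ⟨k, h3⟩
  · exact ⟨-k, by rw [h3]; push_cast; ring⟩

/-- If `a > 0` is coprime to `b` and `a * b` is a square then `a` is a square. -/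
theorem h25d_sq_of_pos_coprime {a b c : ℤ} (ha : 0 < a) (h : IsCoprime a b) (heq : a * b = c ^ 2) :
    ∃ a0 : ℤ, a = a0 ^ 2 := by
  obtain ⟨a0, h1 | h1⟩ := Int.sq_of_isCoprime h heq
  · exact ⟨a0, h1⟩
  · exfalso
    have : 0 ≤ a0 ^ 2 := sq_nonneg a0
    omega

/-- Step 1 of the 2-descent: integral coordinates. -/
theorem h25d_to_int (x y : ℚ) (h : y ^ 2 = x * (x - 1) * (x - 81)) (hy : y ≠ 0) :
    ∃ m q Z : ℤ, q ≠ 0 ∧ IsCoprime m q ∧ x = m / (q : ℚ) ^ 2 ∧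
      m * (m - q ^ 2) * (m - 81 * q ^ 2) = Z ^ 2 ∧ Z ≠ 0 := by
  set m : ℤ := x.num with hm
  set n : ℤ := (x.den : ℤ) with hn
  have hn0 : 0 < n := by
    rw [hn]; exact_mod_cast x.den_pos
  have hnq : (n : ℚ) ≠ 0 := by
    have : (0 : ℚ) < n := by exact_mod_cast hn0
    exact this.ne'
  have hx : x = (m : ℚ) / n := by
    rw [hm, hn]; exact_mod_cast (Rat.num_div_den x).symm
  have hco : IsCoprime m n := Rat.isCoprime_num_den x
  -- n is a square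
  have e1 : ((n * (m * (m - n) * (m - 81 * n)) : ℤ) : ℚ) = (y * n ^ 2) ^ 2 := by
    push_cast
    rw [mul_pow, h, hx]
    field_simp
  obtain ⟨Z0, hZ0⟩ := h25d_int_of_sq_int _ _ e1
  have e2 : n * (m * (m - n) * (m - 81 * n)) = Z0 ^ 2 := by
    have : ((n * (m * (m - n) * (m - 81 * n)) : ℤ) : ℚ) = ((Z0 ^ 2 : ℤ) : ℚ) := by
      rw [e1, hZ0]; push_cast; ring
    exact_mod_cast this
  have c1 : IsCoprime n (m - n) := by
    have := hco.symm.add_mul_left_right (-1)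
    rwa [show m + n * (-1) = m - n by ring] at this
  have c2 : IsCoprime n (m - 81 * n) := by
    have := hco.symm.add_mul_left_right (-81)
    rwa [show m + n * (-81) = m - 81 * n by ring] at this
  have c3 : IsCoprime n (m * (m - n) * (m - 81 * n)) :=
    IsCoprime.mul_right (IsCoprime.mul_right hco.symm c1) c2
  obtain ⟨q, hq⟩ := h25d_sq_of_pos_coprime hn0 c3 e2
  have hq0 : q ≠ 0 := by
    rintro rfl
    rw [hq] at hn0
    simp at hn0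
  have hqq : (q : ℚ) ≠ 0 := by exact_mod_cast hq0
  have hx' : x = (m : ℚ) / (q : ℚ) ^ 2 := by
    rw [hx, hq]; push_cast; ring
  have e3 : ((m * (m - q ^ 2) * (m - 81 * q ^ 2) : ℤ) : ℚ) = (y * q ^ 3) ^ 2 := by
    push_cast
    rw [mul_pow, h, hx']
    field_simp
  obtain ⟨Z, hZ⟩ := h25d_int_of_sq_int _ _ e3
  refine ⟨m, q, Z, hq0, ?_, hx', ?_, ?_⟩
  · have : IsCoprime m (q * q) := by
      have := hco
      rw [hq] at this
      simpa [sq] using this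
    exact this.of_mul_right_left
  · have : ((m * (m - q ^ 2) * (m - 81 * q ^ 2) : ℤ) : ℚ) = ((Z ^ 2 : ℤ) : ℚ) := by
      rw [e3, hZ]; push_cast; ring
    exact_mod_cast this
  · rintro rfl
    have : y * (q : ℚ) ^ 3 = 0 := by rw [hZ]; simp
    rcases mul_eq_zero.mp this with h1 | h1
    · exact hy h1
    · exact hqq (pow_eq_zero_iff (by norm_num) |>.mp h1)

/-- Step 2: the numerator is positive. -/
theorem h25d_num_pos (m q Z : ℤ) (hZ : Z ≠ 0)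
    (hM : m * (m - q ^ 2) * (m - 81 * q ^ 2) = Z ^ 2) : 0 < m := by
  by_contra hcon
  push Not at hcon
  have hZ2 : 0 < Z ^ 2 := by positivity
  have hq2 : 0 ≤ q ^ 2 := sq_nonneg q
  have h1 : m - q ^ 2 ≤ 0 := by linarith
  have h2 : m - 81 * q ^ 2 ≤ 0 := by linarith
  have h3 : 0 ≤ m * (m - q ^ 2) := mul_nonneg_of_nonpos_of_nonpos hcon h1
  have h4 : m * (m - q ^ 2) * (m - 81 * q ^ 2) ≤ 0 := mul_nonpos_of_nonneg_of_nonpos h3 h2
  linarith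

/-- Splitting off the `p`-part of a positive integer. -/
theorem h25d_split (p : ℕ) (hp : p.Prime) (m : ℤ) (hm : 0 < m) :
    ∃ (e : ℕ) (m' : ℤ), 0 < m' ∧ IsCoprime m' (p : ℤ) ∧ m = (p : ℤ) ^ e * m' := by
  have hm0 : m.toNat ≠ 0 := by omega
  obtain ⟨e, n', hn', he⟩ := Nat.exists_eq_pow_mul_and_not_dvd hm0 p hp.ne_one
  refine ⟨e, (n' : ℤ), ?_, ?_, ?_⟩
  · have : n' ≠ 0 := by
      rintro rfl
      simp at hn'
    exact_mod_cast Nat.pos_of_ne_zero this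
  · rw [Nat.isCoprime_iff_coprime]
    exact ((Nat.Prime.coprime_iff_not_dvd hp).2 hn').symm
  · have h1 : (m.toNat : ℤ) = m := Int.toNat_of_nonneg hm.le
    rw [← h1, he]
    push_cast
    ring

/-- Step 3: the numerator is a square or three times a square. -/
theorem h25d_a_class (m q Z : ℤ) (hm : 0 < m) (hco : IsCoprime m q)
    (hM : m * (m - q ^ 2) * (m - 81 * q ^ 2) = Z ^ 2) :
    ∃ k : ℤ, m = k ^ 2 ∨ m = 3 * k ^ 2 := by
  obtain ⟨e, m', hm', hc3, hme⟩ := h25d_split 3 Nat.prime_three m hm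
  have hc3' : IsCoprime m' (3 : ℤ) := by exact_mod_cast hc3
  have hdvd : m' ∣ m := ⟨3 ^ e, by rw [hme]; push_cast; ring⟩
  have hcq : IsCoprime m' q := hco.of_isCoprime_of_dvd_left hdvd
  have hcq2 : IsCoprime m' (q ^ 2) := hcq.pow_right
  have c1 : IsCoprime m' (m - q ^ 2) := by
    have := hcq2.neg_right.add_mul_left_right (3 ^ e)
    rwa [show -q ^ 2 + m' * 3 ^ e = m - q ^ 2 by rw [hme]; push_cast; ring] at this
  have c2 : IsCoprime m' (m - 81 * q ^ 2) := by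
    have h81 : IsCoprime m' (81 * q ^ 2) := by
      have : IsCoprime m' ((3 : ℤ) ^ 4) := hc3'.pow_right
      exact IsCoprime.mul_right (by norm_num at this ⊢; exact this) hcq2
    have := h81.neg_right.add_mul_left_right (3 ^ e)
    rwa [show -(81 * q ^ 2) + m' * 3 ^ e = m - 81 * q ^ 2 by rw [hme]; push_cast; ring] at this
  have c3 : IsCoprime m' ((3 : ℤ) ^ e * (m - q ^ 2) * (m - 81 * q ^ 2)) :=
    IsCoprime.mul_right (IsCoprime.mul_right hc3'.pow_right c1) c2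
  have e1 : m' * ((3 : ℤ) ^ e * (m - q ^ 2) * (m - 81 * q ^ 2)) = Z ^ 2 := by
    rw [← hM]
    nth_rewrite 3 [hme]
    push_cast
    ring
  obtain ⟨k', hk'⟩ := h25d_sq_of_pos_coprime hm' c3 e1
  rcases Nat.even_or_odd' e with ⟨f, rfl | rfl⟩
  · refine ⟨3 ^ f * k', Or.inl ?_⟩
    rw [hme, hk']
    push_cast
    ring
  · refine ⟨3 ^ f * k', Or.inr ?_⟩
    rw [hme, hk']
    push_cast
    ring

theorem h25d_mod3_aux : ∀ w t : ZMod 3, w ^ 2 = -(t ^ 2) → t = 0 := by decide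

/-- `-1` is not a square mod `3`. -/
theorem h25d_mod3 (w t s : ℤ) (h : w ^ 2 = -(t ^ 2) + 3 * s) : (3 : ℤ) ∣ t := by
  have h1 := congrArg (Int.cast : ℤ → ZMod 3) h
  push_cast at h1
  have h3 : (3 : ZMod 3) = 0 := by decide
  rw [h3, zero_mul, add_zero] at h1
  have := h25d_mod3_aux _ _ h1
  exact (ZMod.intCast_zmod_eq_zero_iff_dvd t 3).mp this

theorem h25d_three_dvd_of_sq (w s : ℤ) (h : w ^ 2 = 3 * s) : (3 : ℤ) ∣ w := by
  have h1 : (3 : ℤ) ∣ w ^ 2 := ⟨s, h⟩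
  exact Int.Prime.dvd_pow' Nat.prime_three h1

/-- Step 4: the numerator is not three times a square. -/
theorem h25d_not_three (k q Z : ℤ) (hk : k ≠ 0) (hco : IsCoprime (3 * k ^ 2) q)
    (hM : (3 * k ^ 2) * (3 * k ^ 2 - q ^ 2) * (3 * k ^ 2 - 81 * q ^ 2) = Z ^ 2) : False := by
  have h3q : ¬ (3 : ℤ) ∣ q := by
    intro hd
    have h1 : IsCoprime (3 : ℤ) q := hco.of_isCoprime_of_dvd_left ⟨k ^ 2, rfl⟩
    have h2 : IsUnit (3 : ℤ) := h1.isUnit_of_dvd' (dvd_refl _) hd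
    rw [Int.isUnit_iff] at h2
    omega
  have hkq : (k : ℚ) ≠ 0 := by exact_mod_cast hk
  have e1 : (((3 * k ^ 2 - q ^ 2) * (k ^ 2 - 27 * q ^ 2) : ℤ) : ℚ) = ((Z : ℚ) / (3 * k)) ^ 2 := by
    have := congrArg (Int.cast : ℤ → ℚ) hM
    push_cast at this ⊢
    rw [div_pow, ← this]
    field_simp
    ring
  obtain ⟨W, hW⟩ := h25d_int_of_sq_int _ _ e1
  have e2 : W ^ 2 = (3 * k ^ 2 - q ^ 2) * (k ^ 2 - 27 * q ^ 2) := by
    have : ((W ^ 2 : ℤ) : ℚ) = (((3 * k ^ 2 - q ^ 2) * (k ^ 2 - 27 * q ^ 2) : ℤ) : ℚ) := by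
      rw [e1, hW]; push_cast; ring
    exact_mod_cast this
  -- first level
  have d1 : (3 : ℤ) ∣ q * k :=
    h25d_mod3 W (q * k) (k ^ 4 - 27 * k ^ 2 * q ^ 2 + 9 * q ^ 4) (by rw [e2]; ring)
  rcases (Int.Prime.dvd_mul' Nat.prime_three d1) with d | d
  · exact h3q d
  obtain ⟨k₁, rfl⟩ := d
  have d2 : (3 : ℤ) ∣ W :=
    h25d_three_dvd_of_sq W (3 * (27 * k₁ ^ 2 - q ^ 2) * (k₁ ^ 2 - 3 * q ^ 2)) (by rw [e2]; ring)
  obtain ⟨W₁, rfl⟩ := d2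
  have e3 : W₁ ^ 2 = (27 * k₁ ^ 2 - q ^ 2) * (k₁ ^ 2 - 3 * q ^ 2) := by
    have : 9 * W₁ ^ 2 = 9 * ((27 * k₁ ^ 2 - q ^ 2) * (k₁ ^ 2 - 3 * q ^ 2)) := by
      have := e2
      ring_nf at this ⊢
      linarith
    linarith
  have d3 : (3 : ℤ) ∣ q * k₁ :=
    h25d_mod3 W₁ (q * k₁) (9 * k₁ ^ 4 - 27 * k₁ ^ 2 * q ^ 2 + q ^ 4) (by rw [e3]; ring)
  rcases (Int.Prime.dvd_mul' Nat.prime_three d3) with d | d
  · exact h3q d
  obtain ⟨k₂, rfl⟩ := d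
  have d4 : (3 : ℤ) ∣ W₁ :=
    h25d_three_dvd_of_sq W₁ ((243 * k₂ ^ 2 - q ^ 2) * (3 * k₂ ^ 2 - q ^ 2)) (by rw [e3]; ring)
  obtain ⟨W₂, rfl⟩ := d4
  have e4 : 3 * W₂ ^ 2 = (243 * k₂ ^ 2 - q ^ 2) * (3 * k₂ ^ 2 - q ^ 2) := by
    have := e3
    ring_nf at this ⊢
    linarith
  have d5 : (3 : ℤ) ∣ q ^ 2 :=
    h25d_three_dvd_of_sq (q ^ 2) (W₂ ^ 2 - 243 * k₂ ^ 4 + 82 * k₂ ^ 2 * q ^ 2) (by
      have := e4
      ring_nf at this ⊢
      linarith)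
  exact h3q (Int.Prime.dvd_pow' Nat.prime_three d5)

/-- Step 5: `k² - q²` is `±1, ±2, ±5, ±10` times a square. -/
theorem h25d_b_class (k q Z : ℤ) (hco : IsCoprime k q) (hB : k ^ 2 - q ^ 2 ≠ 0)
    (hM : (k ^ 2 - q ^ 2) * (k ^ 2 - 81 * q ^ 2) = Z ^ 2) :
    ∃ b j : ℤ, j ≠ 0 ∧ (b = 1 ∨ b = -1 ∨ b = 5 ∨ b = -5 ∨ b = 2 ∨ b = -2 ∨ b = 10 ∨ b = -10) ∧
      k ^ 2 - q ^ 2 = b * j ^ 2 := by
  set B : ℤ := k ^ 2 - q ^ 2 with hBdef
  have habs : 0 < |B| := abs_pos.mpr hB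
  obtain ⟨e, B₁, hB₁, hc2, hBe⟩ := h25d_split 2 Nat.prime_two |B| habs
  obtain ⟨f, B', hB', hc5, hBf⟩ := h25d_split 5 Nat.prime_five B₁ hB₁
  have hc2' : IsCoprime B' (2 : ℤ) := by
    have h1 : IsCoprime B₁ (2 : ℤ) := by exact_mod_cast hc2
    exact h1.of_isCoprime_of_dvd_left ⟨5 ^ f, by rw [hBf]; push_cast; ring⟩
  have hc5' : IsCoprime B' (5 : ℤ) := by exact_mod_cast hc5
  have habsB : |B| = 2 ^ e * 5 ^ f * B' := by
    rw [hBe, hBf]; push_cast; ring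
  obtain ⟨ε, hε, hBε⟩ : ∃ ε : ℤ, (ε = 1 ∨ ε = -1) ∧ B = ε * |B| := by
    rcases abs_choice B with h | h
    · exact ⟨1, Or.inl rfl, by rw [h]; ring⟩
    · exact ⟨-1, Or.inr rfl, by rw [h]; ring⟩
  have hdvd : B' ∣ B := ⟨ε * 2 ^ e * 5 ^ f, by rw [hBε, habsB]; ring⟩
  -- coprimality of B' with q
  have hBq : IsCoprime B q := by
    have h1 : IsCoprime (k ^ 2) q := hco.pow_left
    have := (h1.symm.neg_left.symm).add_mul_right_left (-q)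
    rw [show k ^ 2 + -q * -q = k ^ 2 + q ^ 2 by ring] at this
    have h2 := (h1.symm.add_mul_left_right (-q)).symm
    rwa [show k ^ 2 + q * -q = B by rw [hBdef]; ring] at h2
  have hcq : IsCoprime B' q := hBq.of_isCoprime_of_dvd_left hdvd
  have h80 : IsCoprime B' (80 * q ^ 2) := by
    have h16 : IsCoprime B' ((2 : ℤ) ^ 4) := hc2'.pow_right
    have h80' : IsCoprime B' ((2 : ℤ) ^ 4 * 5) := IsCoprime.mul_right h16 hc5'
    exact IsCoprime.mul_right (by norm_num at h80' ⊢; exact h80') hcq.pow_right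
  have c1 : IsCoprime B' (k ^ 2 - 81 * q ^ 2) := by
    have := h80.neg_right.add_mul_left_right (ε * 2 ^ e * 5 ^ f)
    rwa [show -(80 * q ^ 2) + B' * (ε * 2 ^ e * 5 ^ f) = k ^ 2 - 81 * q ^ 2 by
      have : B' * (ε * 2 ^ e * 5 ^ f) = B := by rw [hBε, habsB]; ring
      rw [this, hBdef]; ring] at this
  have hcε : IsCoprime B' ε := by
    rcases hε with rfl | rfl
    · exact isCoprime_one_right
    · exact isCoprime_one_right.neg_right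
  have c2 : IsCoprime B' (ε * 2 ^ e * 5 ^ f * (k ^ 2 - 81 * q ^ 2)) :=
    IsCoprime.mul_right (IsCoprime.mul_right (IsCoprime.mul_right hcε hc2'.pow_right)
      hc5'.pow_right) c1
  have e1 : B' * (ε * 2 ^ e * 5 ^ f * (k ^ 2 - 81 * q ^ 2)) = Z ^ 2 := by
    rw [← hM, hBε, habsB]; ring
  obtain ⟨j', hj'⟩ := h25d_sq_of_pos_coprime hB' c2 e1
  have hj'0 : j' ≠ 0 := by
    rintro rfl
    rw [hj'] at hB'
    simp at hB'
  have hBfinal : B = ε * 2 ^ e * 5 ^ f * j' ^ 2 := by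
    rw [hBε, habsB, hj']; ring
  have h2e : ∀ n : ℕ, (2 : ℤ) ^ n ≠ 0 := fun n => pow_ne_zero n (by norm_num)
  have h5f : ∀ n : ℕ, (5 : ℤ) ^ n ≠ 0 := fun n => pow_ne_zero n (by norm_num)
  rcases Nat.even_or_odd' e with ⟨e', rfl | rfl⟩ <;>
  rcases Nat.even_or_odd' f with ⟨f', rfl | rfl⟩
  · refine ⟨ε, 2 ^ e' * 5 ^ f' * j', mul_ne_zero (mul_ne_zero (h2e _) (h5f _)) hj'0, ?_, ?_⟩
    · rcases hε with rfl | rfl <;> simp
    · rw [hBfinal]; ring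
  · refine ⟨5 * ε, 2 ^ e' * 5 ^ f' * j', mul_ne_zero (mul_ne_zero (h2e _) (h5f _)) hj'0, ?_, ?_⟩
    · rcases hε with rfl | rfl <;> simp
    · rw [hBfinal]; ring
  · refine ⟨2 * ε, 2 ^ e' * 5 ^ f' * j', mul_ne_zero (mul_ne_zero (h2e _) (h5f _)) hj'0, ?_, ?_⟩
    · rcases hε with rfl | rfl <;> simp
    · rw [hBfinal]; ring
  · refine ⟨10 * ε, 2 ^ e' * 5 ^ f' * j', mul_ne_zero (mul_ne_zero (h2e _) (h5f _)) hj'0, ?_, ?_⟩
    · rcases hε with rfl | rfl <;> simp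
    · rw [hBfinal]; ring

theorem h25d_mod4_aux : ∀ V t c b : ZMod 4, (b = 1 ∨ b = 3) →
    V ^ 2 ≠ b * (b * t ^ 2 - 10 * (2 * c + 1) ^ 2) := by decide

/-- Step 6: `k² - q²` is not `±2, ±10` times a square. -/
theorem h25d_not_even (k q j Z b' : ℤ) (hb' : b' = 1 ∨ b' = -1 ∨ b' = 5 ∨ b' = -5)
    (hco : IsCoprime k q) (hj : j ≠ 0) (hB : k ^ 2 - q ^ 2 = 2 * b' * j ^ 2)
    (hM : (k ^ 2 - q ^ 2) * (k ^ 2 - 81 * q ^ 2) = Z ^ 2) : False := by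
  have hev : Even (k ^ 2 - q ^ 2) := ⟨b' * j ^ 2, by rw [hB]; ring⟩
  rw [Int.even_sub, Int.even_pow' two_ne_zero, Int.even_pow' two_ne_zero] at hev
  have hkodd : ¬ Even k := by
    intro hk
    have hq := hev.mp hk
    have h2 : IsUnit (2 : ℤ) :=
      hco.isUnit_of_dvd' (even_iff_two_dvd.mp hk) (even_iff_two_dvd.mp hq)
    rw [Int.isUnit_iff] at h2
    omega
  have hqodd : ¬ Even q := fun hq => hkodd (hev.mpr hq)
  rw [Int.not_even_iff_odd] at hkodd hqodd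
  obtain ⟨a, rfl⟩ := hkodd
  obtain ⟨c, rfl⟩ := hqodd
  obtain ⟨A', hA'⟩ := Int.even_mul_succ_self a
  obtain ⟨C', hC'⟩ := Int.even_mul_succ_self c
  have h8 : (2 * a + 1) ^ 2 - (2 * c + 1) ^ 2 = 8 * (A' - C') := by
    have : (2 * a + 1) ^ 2 - (2 * c + 1) ^ 2 = 4 * (a * (a + 1)) - 4 * (c * (c + 1)) := by ring
    rw [this, hA', hC']; ring
  have hb'odd : ¬ Even b' := by
    rcases hb' with rfl | rfl | rfl | rfl <;> decide
  have e1 : b' * j ^ 2 = 4 * (A' - C') := by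
    have := hB
    rw [h8] at this
    linarith
  have hjev : Even j := by
    have h1 : Even (b' * j ^ 2) := ⟨2 * (A' - C'), by rw [e1]; ring⟩
    rw [Int.even_mul, Int.even_pow' two_ne_zero] at h1
    exact h1.resolve_left hb'odd
  obtain ⟨j₁, rfl⟩ := even_iff_two_dvd.mp hjev
  have hj₁ : j₁ ≠ 0 := by
    rintro rfl
    simp at hj
  have e2 : A' - C' = b' * j₁ ^ 2 := by
    have := e1
    ring_nf at this ⊢
    linarith
  have e3 : (2 * a + 1) ^ 2 - (2 * c + 1) ^ 2 = 8 * (b' * j₁ ^ 2) := by rw [h8, e2]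
  have e4 : (2 * a + 1) ^ 2 - 81 * (2 * c + 1) ^ 2 =
      8 * (b' * j₁ ^ 2 - 10 * (2 * c + 1) ^ 2) := by
    have := e3
    linarith
  have hj₁q : (j₁ : ℚ) ≠ 0 := by exact_mod_cast hj₁
  have e5 : ((b' * (b' * j₁ ^ 2 - 10 * (2 * c + 1) ^ 2) : ℤ) : ℚ) = ((Z : ℚ) / (8 * j₁)) ^ 2 := by
    have := hM
    rw [e3, e4] at this
    have := congrArg (Int.cast : ℤ → ℚ) this
    push_cast at this ⊢
    rw [div_pow, ← this]
    field_simp
  obtain ⟨V, hV⟩ := h25d_int_of_sq_int _ _ e5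
  have e6 : V ^ 2 = b' * (b' * j₁ ^ 2 - 10 * (2 * c + 1) ^ 2) := by
    have : ((V ^ 2 : ℤ) : ℚ) = ((b' * (b' * j₁ ^ 2 - 10 * (2 * c + 1) ^ 2) : ℤ) : ℚ) := by
      rw [e5, hV]; push_cast; ring
    exact_mod_cast this
  have e7 := congrArg (Int.cast : ℤ → ZMod 4) e6
  push_cast at e7
  refine h25d_mod4_aux (V : ZMod 4) (j₁ : ZMod 4) (c : ZMod 4) (b' : ZMod 4) ?_ e7
  rcases hb' with rfl | rfl | rfl | rfl
  · left; simp
  · right; decide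
  · left; decide
  · right; decide

/-- The output of the 2-descent in rational form. -/
theorem h25d_classes_aux (x y : ℚ) (h : y ^ 2 = x * (x - 1) * (x - 81)) (hy : y ≠ 0)
    (k q j : ℤ) (b : ℚ) (hb0 : b ≠ 0) (hk : k ≠ 0) (hq : q ≠ 0) (hj : j ≠ 0)
    (hx : x = ((k ^ 2 : ℤ) : ℚ) / (q : ℚ) ^ 2)
    (hB : ((k ^ 2 - q ^ 2 : ℤ) : ℚ) = b * (j : ℚ) ^ 2) :
    ∃ r s t : ℚ, r ≠ 0 ∧ s ≠ 0 ∧ t ≠ 0 ∧ x = r ^ 2 ∧ x - 1 = b * s ^ 2 ∧ x - 81 = b * t ^ 2 := by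
  have hkq : (k : ℚ) ≠ 0 := by exact_mod_cast hk
  have hqq : (q : ℚ) ≠ 0 := by exact_mod_cast hq
  have hjq : (j : ℚ) ≠ 0 := by exact_mod_cast hj
  have hr : (k : ℚ) / q ≠ 0 := div_ne_zero hkq hqq
  have hs : (j : ℚ) / q ≠ 0 := div_ne_zero hjq hqq
  have hx1 : x = ((k : ℚ) / q) ^ 2 := by
    rw [hx]; push_cast; rw [div_pow]
  have hx2 : x - 1 = b * ((j : ℚ) / q) ^ 2 := by
    rw [div_pow, ← mul_div_assoc, ← hB, hx]
    push_cast
    field_simp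
  refine ⟨(k : ℚ) / q, (j : ℚ) / q, y / (b * ((k : ℚ) / q) * ((j : ℚ) / q)), hr, hs,
    div_ne_zero hy (mul_ne_zero (mul_ne_zero hb0 hr) hs), hx1, hx2, ?_⟩
  have hxne : x ≠ 0 := by rw [hx1]; exact pow_ne_zero 2 hr
  have hx1ne : x - 1 ≠ 0 := by rw [hx2]; exact mul_ne_zero hb0 (pow_ne_zero 2 hs)
  have e1 : x - 81 = y ^ 2 / (x * (x - 1)) := by
    rw [h]; field_simp
  rw [e1, div_pow, mul_pow, mul_pow]
  nth_rewrite 1 [hx1]
  nth_rewrite 1 [hx2]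
  field_simp

/-- **2-descent**: the class of a rational point with `y ≠ 0`. -/
theorem h25d_classes (x y : ℚ) (h : y ^ 2 = x * (x - 1) * (x - 81)) (hy : y ≠ 0) :
    ∃ b : ℚ, (b = 1 ∨ b = -1 ∨ b = 5 ∨ b = -5) ∧ ∃ r s t : ℚ, r ≠ 0 ∧ s ≠ 0 ∧ t ≠ 0 ∧
      x = r ^ 2 ∧ x - 1 = b * s ^ 2 ∧ x - 81 = b * t ^ 2 := by
  obtain ⟨m, q, Z, hq0, hco, hx, hM, hZ⟩ := h25d_to_int x y h hy
  have hm := h25d_num_pos m q Z hZ hM
  obtain ⟨k, hk | hk⟩ := h25d_a_class m q Z hm hco hM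
  swap
  · subst hk
    have hk0 : k ≠ 0 := by
      rintro rfl
      simp at hm
    exact (h25d_not_three k q Z hk0 hco hM).elim
  subst hk
  have hk0 : k ≠ 0 := by
    rintro rfl
    simp at hm
  have hcokq : IsCoprime k q := by
    have : IsCoprime (k * k) q := by simpa [sq] using hco
    exact this.of_mul_left_left
  have hkq : (k : ℚ) ≠ 0 := by exact_mod_cast hk0
  have e1 : (((k ^ 2 - q ^ 2) * (k ^ 2 - 81 * q ^ 2) : ℤ) : ℚ) = ((Z : ℚ) / k) ^ 2 := by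
    have := congrArg (Int.cast : ℤ → ℚ) hM
    push_cast at this ⊢
    rw [div_pow, ← this]
    field_simp
  obtain ⟨Z₁, hZ₁⟩ := h25d_int_of_sq_int _ _ e1
  have hM₁ : (k ^ 2 - q ^ 2) * (k ^ 2 - 81 * q ^ 2) = Z₁ ^ 2 := by
    have : (((k ^ 2 - q ^ 2) * (k ^ 2 - 81 * q ^ 2) : ℤ) : ℚ) = ((Z₁ ^ 2 : ℤ) : ℚ) := by
      rw [e1, hZ₁]; push_cast; ring
    exact_mod_cast this
  have hB : k ^ 2 - q ^ 2 ≠ 0 := by
    intro h0
    rw [h0] at hM
    simp only [mul_zero, zero_mul] at hM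
    exact hZ (pow_eq_zero_iff (by norm_num) |>.mp hM.symm)
  obtain ⟨b, j, hj, hb, hBj⟩ := h25d_b_class k q Z₁ hcokq hB hM₁
  have hBjq : ((k ^ 2 - q ^ 2 : ℤ) : ℚ) = (b : ℚ) * (j : ℚ) ^ 2 := by
    rw [hBj]; push_cast; ring
  rcases hb with rfl | rfl | rfl | rfl | rfl | rfl | rfl | rfl
  · exact ⟨1, Or.inl rfl, h25d_classes_aux x y h hy k q j 1 (by norm_num) hk0 hq0 hj hx
      (by rw [hBjq]; norm_num)⟩
  · exact ⟨-1, Or.inr (Or.inl rfl), h25d_classes_aux x y h hy k q j (-1) (by norm_num) hk0 hq0 hj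
      hx (by rw [hBjq]; norm_num)⟩
  · exact ⟨5, Or.inr (Or.inr (Or.inl rfl)), h25d_classes_aux x y h hy k q j 5 (by norm_num) hk0
      hq0 hj hx (by rw [hBjq]; norm_num)⟩
  · exact ⟨-5, Or.inr (Or.inr (Or.inr rfl)), h25d_classes_aux x y h hy k q j (-5) (by norm_num)
      hk0 hq0 hj hx (by rw [hBjq]; norm_num)⟩
  · exact (h25d_not_even k q j Z₁ 1 (Or.inl rfl) hcokq hj (by rw [hBj]; ring) hM₁).elim
  · exact (h25d_not_even k q j Z₁ (-1) (Or.inr (Or.inl rfl)) hcokq hj (by rw [hBj]; ring)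
      hM₁).elim
  · exact (h25d_not_even k q j Z₁ 5 (Or.inr (Or.inr (Or.inl rfl))) hcokq hj (by rw [hBj]; ring)
      hM₁).elim
  · exact (h25d_not_even k q j Z₁ (-5) (Or.inr (Or.inr (Or.inr rfl))) hcokq hj
      (by rw [hBj]; ring) hM₁).elim

/-- **Class lemma** in `IsSquare` form (interface for the descent). -/
theorem h25_class (x y : ℚ) (h : y ^ 2 = x * (x - 1) * (x - 81)) (hy : y ≠ 0) :
    ∃ e : ℚ, (e = 1 ∨ e = -1 ∨ e = 5 ∨ e = -5) ∧ IsSquare x ∧ IsSquare (e * (x - 1)) ∧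
      IsSquare (e * (x - 81)) := by
  obtain ⟨b, hb, r, s, t, -, -, -, hx, hx1, hx81⟩ := h25d_classes x y h hy
  refine ⟨b, hb, ⟨r, by rw [hx]; ring⟩, ⟨b * s, by rw [hx1]; ring⟩, ⟨b * t, by rw [hx81]; ring⟩⟩

end Fermat.Agent.H3S51
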