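import Mathlib

/-!
# S51 slice P4, part A: the halving step on `y² = x (x - 1) (x - 81)`

If `X = α₁²`, `X - 1 = α₂²`, `X - 81 = α₃²` for rational `αᵢ`, then
`x' = (α₁ + α₂) (α₁ + α₃)`, `y' = (α₁ + α₂) (α₁ + α₃) (α₂ + α₃)` is again a rational point on the
curve, with `y' ≠ 0`.  We also record the elementary height estimate for a quotient of integers.
-/

set_option autoImplicit false

namespace Fermat.Agent.H3S51

/-- The halving construction gives a point on the curve. -/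
theorem h27_halve_on_curve (α₁ α₂ α₃ : ℚ) (h2 : α₂ ^ 2 = α₁ ^ 2 - 1) (h3 : α₃ ^ 2 = α₁ ^ 2 - 81) :
    ((α₁ + α₂) * (α₁ + α₃) * (α₂ + α₃)) ^ 2 =
      ((α₁ + α₂) * (α₁ + α₃)) * ((α₁ + α₂) * (α₁ + α₃) - 1) * ((α₁ + α₂) * (α₁ + α₃) - 81) := by
  have e2 : (α₁ + α₂) * (α₁ + α₃) - 1 = (α₂ + α₁) * (α₂ + α₃) := by
    linear_combination -h2
  have e3 : (α₁ + α₂) * (α₁ + α₃) - 81 = (α₃ + α₁) * (α₃ + α₂) := by
    linear_combination -h3
  rw [e2, e3]
  ring

/-- The halving construction gives a point with nonzero `y`. -/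
theorem h27_halve_ne_zero (α₁ α₂ α₃ : ℚ) (h2 : α₂ ^ 2 = α₁ ^ 2 - 1) (h3 : α₃ ^ 2 = α₁ ^ 2 - 81) :
    (α₁ + α₂) * (α₁ + α₃) * (α₂ + α₃) ≠ 0 := by
  have e12 : (α₁ + α₂) * (α₁ - α₂) = 1 := by linear_combination -h2
  have e13 : (α₁ + α₃) * (α₁ - α₃) = 81 := by linear_combination -h3
  have e23 : (α₂ + α₃) * (α₂ - α₃) = 80 := by linear_combination h2 - h3
  have n12 : α₁ + α₂ ≠ 0 := by
    intro h; rw [h, zero_mul] at e12; norm_num at e12
  have n13 : α₁ + α₃ ≠ 0 := by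
    intro h; rw [h, zero_mul] at e13; norm_num at e13
  have n23 : α₂ + α₃ ≠ 0 := by
    intro h; rw [h, zero_mul] at e23; norm_num at e23
  exact mul_ne_zero (mul_ne_zero n12 n13) n23

/-- Height of a quotient of integers. -/
theorem h27_height_div_le (N D : ℤ) (hD : D ≠ 0) :
    ((N : ℚ) / D).num.natAbs + ((N : ℚ) / D).den ≤ N.natAbs + D.natAbs := by
  have h1 : ((N : ℚ) / D) = Rat.divInt N D := (Rat.divInt_eq_div N D).symm
  rw [h1]
  have hden : ((Rat.divInt N D).den : ℤ) ∣ D := Rat.den_dvd N D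
  have hnum : (Rat.divInt N D).num ∣ N := Rat.num_dvd N hD
  have hden' : (Rat.divInt N D).den ≤ D.natAbs := by
    have : ((Rat.divInt N D).den : ℤ).natAbs ∣ D.natAbs := Int.natAbs_dvd_natAbs.mpr hden
    rw [Int.natAbs_natCast] at this
    exact Nat.le_of_dvd (Int.natAbs_pos.mpr hD) this
  have hnum' : (Rat.divInt N D).num.natAbs ≤ N.natAbs := by
    rcases eq_or_ne N 0 with rfl | hN
    · simp
    · exact Nat.le_of_dvd (Int.natAbs_pos.mpr hN) (Int.natAbs_dvd_natAbs.mpr hnum)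
  omega

end Fermat.Agent.H3S51
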