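import Fermat.Agent.S51.Torsion5
import Fermat.Agent.S51.Param
import Fermat.Agent.S05.XGalois
import Fermat.Prelude.Def_FLTPrelim_ModularRep
import Mathlib.FieldTheory.Galois.Infinite
import Mathlib.LinearAlgebra.FiniteDimensional.Lemmas

/-!
# S51, slice Red5 (helper19): a reducible mod-5 representation gives the data for `h2s51_param5`

If the mod-5 representation of `W` is reducible, there are `x₁ ≠ x₂` in `ℚ̄` (the `x`-coordinates
of `P` and `2P` for a generator `P` of a Galois-stable line in `E[5]`) with `x₁ + x₂` and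
`x₁ x₂` rational, related by the duplication formula in both directions.
-/

set_option autoImplicit false

namespace Fermat.Agent.H3S51

open WeierstrassCurve WeierstrassCurve.Affine Polynomial

/-! ### Counting points by their `x`-coordinates -/

section Count

variable {K : Type*} [Field K] [DecidableEq K] (E : WeierstrassCurve.Affine K)

/-- a chosen `y` above `x` -/
noncomputable def h19s51_cy (x : K) : K :=
  Classical.epsilon fun y => E.Nonsingular x y

theorem h19s51_cy_spec {x y : K} (h : E.Nonsingular x y) : E.Nonsingular x (h19s51_cy E x) :=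
  Classical.epsilon_spec (p := fun y => E.Nonsingular x y) ⟨y, h⟩

/-- an injective code of the points -/
noncomputable def h19s51_code : E.Point → Option (K × Bool)
  | .zero => none
  | .some x y _ => some (x, decide (y = h19s51_cy E x))

theorem h19s51_code_injective : Function.Injective (h19s51_code E) := by
  rintro (_ | ⟨x, y, h⟩) (_ | ⟨x', y', h'⟩) hPQ
  · rfl
  · simp [h19s51_code] at hPQ
  · simp [h19s51_code] at hPQ
  · simp only [h19s51_code, Option.some.injEq, Prod.mk.injEq, decide_eq_decide] at hPQ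
    obtain ⟨rfl, hdec⟩ := hPQ
    have hc := h19s51_cy_spec E h
    have hyy : y = y' := by
      rcases Y_eq_of_X_eq h.1 h'.1 rfl with h1 | h1
      · exact h1
      · rcases Y_eq_of_X_eq hc.1 h'.1 rfl with h2 | h2
        · -- c = y'
          have : y = h19s51_cy E x := hdec.mpr h2.symm
          rw [this, h2]
        · -- c = negY y' = y
          have : y = h19s51_cy E x := by rw [h1, h2]
          have h3 : y' = h19s51_cy E x := hdec.mp this
          rw [this, ← h3]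
    subst hyy
    rfl

/-- A set of points whose nonzero members have `x`-coordinate a root of `F ≠ 0` has at most
`2 deg F + 1` elements. -/
theorem h19s51_count (F : Polynomial K) (hF : F ≠ 0) (s : Set E.Point)
    (hs : ∀ (x y : K) (h : E.Nonsingular x y), Point.some x y h ∈ s → F.eval x = 0) :
    s.Finite ∧ s.ncard ≤ 2 * F.natDegree + 1 := by
  classical
  let T : Finset (Option (K × Bool)) :=
    insert none ((F.roots.toFinset ×ˢ (Finset.univ : Finset Bool)).image some)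
  have himg : h19s51_code E '' s ⊆ (T : Set (Option (K × Bool))) := by
    rintro _ ⟨P, hP, rfl⟩
    rcases P with _ | ⟨x, y, h⟩
    · simp [T, h19s51_code]
    · have hx : F.eval x = 0 := hs x y h hP
      simp only [h19s51_code, T, Finset.coe_insert, Finset.coe_image, Set.mem_insert_iff,
        reduceCtorEq, Set.mem_image, Finset.mem_coe, Finset.mem_product, Multiset.mem_toFinset,
        Finset.mem_univ, and_true, Option.some.injEq, false_or]
      exact ⟨(x, decide (y = h19s51_cy E x)), (mem_roots hF).mpr hx, rfl⟩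
  have hfin_img : (h19s51_code E '' s).Finite := T.finite_toSet.subset himg
  have hfin : s.Finite := hfin_img.of_finite_image (h19s51_code_injective E).injOn
  refine ⟨hfin, ?_⟩
  have h1 : s.ncard = (h19s51_code E '' s).ncard :=
    (Set.ncard_image_of_injective s (h19s51_code_injective E)).symm
  have h2 : (h19s51_code E '' s).ncard ≤ (T : Set (Option (K × Bool))).ncard :=
    Set.ncard_le_ncard himg T.finite_toSet
  have h3 : (T : Set (Option (K × Bool))).ncard = T.card := Set.ncard_coe_finset T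
  have h4 : T.card ≤ 2 * F.natDegree + 1 := by
    refine (Finset.card_insert_le _ _).trans ?_
    have h5 : ((F.roots.toFinset ×ˢ (Finset.univ : Finset Bool)).image some).card
        ≤ 2 * F.natDegree := by
      refine Finset.card_image_le.trans ?_
      rw [Finset.card_product, Finset.card_univ, Fintype.card_bool, mul_comm]
      have : F.roots.toFinset.card ≤ F.natDegree :=
        (Multiset.toFinset_card_le _).trans (card_roots' F)
      omega
    omega
  omega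

end Count

/-! ### Lines in small `ZMod p`-modules -/

section Line

/-- In a `ZMod p`-module with fewer than `p³` elements, every proper nonzero submodule consists
of the multiples of one nonzero element. -/
theorem h19s51_line (p : ℕ) [Fact p.Prime] (V : Type*) [AddCommGroup V] [Module (ZMod p) V]
    [Finite V] (hcard : Nat.card V < p ^ 3) (N : Submodule (ZMod p) V) (hbot : N ≠ ⊥)
    (htop : N ≠ ⊤) : ∃ P ∈ N, P ≠ 0 ∧ ∀ Q ∈ N, ∃ k : ℕ, Q = k • P := by
  classical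
  haveI : Module.Finite (ZMod p) V := Module.Finite.of_finite
  have hp : 1 < p := (Fact.out : p.Prime).one_lt
  have hV : Nat.card V = p ^ Module.finrank (ZMod p) V := by
    rw [Module.natCard_eq_pow_finrank (K := ZMod p) (V := V), Nat.card_zmod]
  have hV2 : Module.finrank (ZMod p) V < 3 := by
    rw [hV] at hcard
    exact (Nat.pow_lt_pow_iff_right hp).mp hcard
  have hN1 : Module.finrank (ZMod p) N < Module.finrank (ZMod p) V := Submodule.finrank_lt htop
  have hN0 : 0 < Module.finrank (ZMod p) N := by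
    rw [Module.finrank_pos_iff]
    exact (Submodule.nontrivial_iff_ne_bot).mpr hbot
  have hN : Module.finrank (ZMod p) N = 1 := by omega
  obtain ⟨v, hv0, hv⟩ := finrank_eq_one_iff'.mp hN
  refine ⟨v.1, v.2, fun h => hv0 (Subtype.ext h), fun Q hQ => ?_⟩
  obtain ⟨c, hc⟩ := hv ⟨Q, hQ⟩
  refine ⟨c.val, ?_⟩
  have h1 : (c • v : N) = (c.val : ℕ) • v := by
    conv_lhs => rw [← ZMod.natCast_zmod_val c]
    exact Nat.cast_smul_eq_nsmul (ZMod p) c.val v
  have h2 := congrArg (fun w : N => (w : V)) hc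
  simp only at h2
  rw [← h2, h1]
  rfl

end Line

/-! ### The main reduction -/

section Main

open WeierstrassCurve.Affine.Point Fermat.Agent.H29

variable {R : Type*} {S : Type*} {K : Type*} [CommRing R] [CommRing S] [Field K]
  [DecidableEq K] {W' : Affine R} [Algebra R S] [Algebra R K] [Algebra S K]
  [IsScalarTower R S K]

theorem h19s51_smul_nsmul (σ : K ≃ₐ[S] K) (k : ℕ) (P : (W'⁄K).Point) :
    σ • (k • P) = k • (σ • P) := by
  rw [← natCast_zsmul, algEquiv_smul_zsmul, natCast_zsmul]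

/-- multiples of a 5-torsion point only depend on the multiplier mod 5 -/
theorem h19s51_nsmul_mod {G : Type*} [AddCommGroup G] (P : G) (h5 : (5 : ℕ) • P = 0) (k : ℕ) :
    k • P = (k % 5) • P := by
  conv_lhs => rw [← Nat.div_add_mod k 5]
  rw [add_nsmul, mul_nsmul, h5, nsmul_zero, zero_add]

/-- the Galois action permutes `{x(P), x(2P)}` when it stabilises the multiples of a nonzero
5-torsion point `P` -/
theorem h19s51_perm (σ : K ≃ₐ[S] K) (P : (W'⁄K).Point) (hP : P ≠ 0) (h5 : (5 : ℕ) • P = 0)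
    (k : ℕ) (hk : σ • P = k • P) :
    (σ (h29_xi (W'⁄K) 0 P) = h29_xi (W'⁄K) 0 P ∧
      σ (h29_xi (W'⁄K) 0 ((2 : ℕ) • P)) = h29_xi (W'⁄K) 0 ((2 : ℕ) • P)) ∨
    (σ (h29_xi (W'⁄K) 0 P) = h29_xi (W'⁄K) 0 ((2 : ℕ) • P) ∧
      σ (h29_xi (W'⁄K) 0 ((2 : ℕ) • P)) = h29_xi (W'⁄K) 0 P) := by
  have hσ0 : σ (0 : K) = 0 := map_zero σ
  have e1 : σ (h29_xi (W'⁄K) 0 P) = h29_xi (W'⁄K) 0 ((k % 5) • P) := by
    rw [← h29_xi_smul σ 0 hσ0, hk, h19s51_nsmul_mod P h5 k]
  have e2 : σ (h29_xi (W'⁄K) 0 ((2 : ℕ) • P)) = h29_xi (W'⁄K) 0 ((2 * (k % 5)) • P) := by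
    rw [← h29_xi_smul σ 0 hσ0, h19s51_smul_nsmul, hk, h19s51_nsmul_mod P h5 k, ← mul_nsmul']
  have h4 : (4 : ℕ) • P = -P := by
    have : (4 : ℕ) • P + P = 0 := by
      rw [← succ_nsmul]
      exact h5
    exact eq_neg_of_add_eq_zero_left this
  have h3 : (3 : ℕ) • P = -((2 : ℕ) • P) := by
    have : (3 : ℕ) • P + (2 : ℕ) • P = 0 := by
      rw [← add_nsmul]
      exact h5
    exact eq_neg_of_add_eq_zero_left this
  have hlt : k % 5 < 5 := Nat.mod_lt _ (by norm_num)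
  have hcases : k % 5 = 0 ∨ k % 5 = 1 ∨ k % 5 = 2 ∨ k % 5 = 3 ∨ k % 5 = 4 := by omega
  rcases hcases with h0 | h1 | h2 | h3' | h4'
  · exfalso
    have : σ • P = 0 := by rw [hk, h19s51_nsmul_mod P h5 k, h0, zero_nsmul]
    exact hP ((h29_smul_eq_zero_iff σ P).mp this)
  · left
    rw [e1, e2, h1]
    exact ⟨by rw [one_nsmul], rfl⟩
  · right
    rw [e1, e2, h2]
    refine ⟨rfl, ?_⟩
    show h29_xi (W'⁄K) 0 ((4 : ℕ) • P) = _
    rw [h4, h29_xi_neg]
  · right
    rw [e1, e2, h3']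
    refine ⟨by rw [h3, h29_xi_neg], ?_⟩
    show h29_xi (W'⁄K) 0 ((6 : ℕ) • P) = _
    rw [h19s51_nsmul_mod P h5 6]
    show h29_xi (W'⁄K) 0 ((1 : ℕ) • P) = _
    rw [one_nsmul]
  · left
    rw [e1, e2, h4']
    refine ⟨by rw [h4, h29_xi_neg], ?_⟩
    show h29_xi (W'⁄K) 0 ((8 : ℕ) • P) = _
    rw [h19s51_nsmul_mod P h5 8]
    show h29_xi (W'⁄K) 0 ((3 : ℕ) • P) = _
    rw [h3, h29_xi_neg]

end Main

section Final

open WeierstrassCurve.Affine.Point Fermat.Agent.H29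

/-- **Red5**: a reducible mod-5 representation yields the input of `h2s51_param5`. -/
theorem h19s51_line5 (W : WeierstrassCurve ℤ) (hΔ : W.Δ ≠ 0) (h : ¬ W.ModRepIsIrreducible 5) :
    ∃ (x₁ x₂ : AlgebraicClosure ℚ) (e₁ e₂ : ℚ), x₁ ≠ x₂ ∧
      algebraMap ℚ (AlgebraicClosure ℚ) e₁ = x₁ + x₂ ∧
      algebraMap ℚ (AlgebraicClosure ℚ) e₂ = x₁ * x₂ ∧
      x₂ * ((W.map (Int.castRingHom ℚ)).map (algebraMap ℚ (AlgebraicClosure ℚ))).Ψ₂Sq.eval x₁ =
        (((W.map (Int.castRingHom ℚ)).map (algebraMap ℚ (AlgebraicClosure ℚ))).Φ 2).eval x₁ ∧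
      x₁ * ((W.map (Int.castRingHom ℚ)).map (algebraMap ℚ (AlgebraicClosure ℚ))).Ψ₂Sq.eval x₂ =
        (((W.map (Int.castRingHom ℚ)).map (algebraMap ℚ (AlgebraicClosure ℚ))).Φ 2).eval x₂ := by
  haveI : Fact (Nat.Prime 5) := ⟨by norm_num⟩
  -- the curve over `ℚ̄`
  have hΔE : ((W.map (Int.castRingHom ℚ))⁄(AlgebraicClosure ℚ)).Δ ≠ 0 := by
    show ((W.map (Int.castRingHom ℚ)).map (algebraMap ℚ (AlgebraicClosure ℚ))).Δ ≠ 0
    rw [WeierstrassCurve.map_Δ, WeierstrassCurve.map_Δ]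
    intro h0
    have h1 : (Int.castRingHom ℚ) W.Δ = 0 :=
      (algebraMap ℚ (AlgebraicClosure ℚ)).injective (by rw [h0, _root_.map_zero])
    have h2 : ((W.Δ : ℤ) : ℚ) = 0 := h1
    exact hΔ (Int.cast_eq_zero.mp h2)
  -- membership in the 5-torsion
  have hmem : ∀ P : ((W.map (Int.castRingHom ℚ))⁄(AlgebraicClosure ℚ)).Point,
      P ∈ Submodule.torsionBy ℤ ((W.map (Int.castRingHom ℚ))⁄(AlgebraicClosure ℚ)).Point
        ((5 : ℕ) : ℤ) ↔ (5 : ℕ) • P = 0 := by
    intro P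
    rw [Submodule.mem_torsionBy_iff, natCast_zsmul]
  -- finiteness and cardinality
  obtain ⟨F, hF0, hFdeg, hFroot⟩ :=
    h29s51_five_poly' ((W.map (Int.castRingHom ℚ))⁄(AlgebraicClosure ℚ))
  obtain ⟨hfin, hncard⟩ := h19s51_count ((W.map (Int.castRingHom ℚ))⁄(AlgebraicClosure ℚ)) F hF0
    (SetLike.coe (Submodule.torsionBy ℤ
      ((W.map (Int.castRingHom ℚ))⁄(AlgebraicClosure ℚ)).Point ((5 : ℕ) : ℤ)))
    (fun x y hxy hP => hFroot x y hxy ((hmem _).mp hP))
  haveI hFin : Finite (Submodule.torsionBy ℤ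
      ((W.map (Int.castRingHom ℚ))⁄(AlgebraicClosure ℚ)).Point ((5 : ℕ) : ℤ)) :=
    hfin.to_subtype
  have hcard : Nat.card (Submodule.torsionBy ℤ
      ((W.map (Int.castRingHom ℚ))⁄(AlgebraicClosure ℚ)).Point ((5 : ℕ) : ℤ)) < 5 ^ 3 := by
    have h1 : Nat.card (Submodule.torsionBy ℤ
        ((W.map (Int.castRingHom ℚ))⁄(AlgebraicClosure ℚ)).Point ((5 : ℕ) : ℤ)) =
        (SetLike.coe (Submodule.torsionBy ℤ
          ((W.map (Int.castRingHom ℚ))⁄(AlgebraicClosure ℚ)).Point ((5 : ℕ) : ℤ))).ncard :=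
      Nat.card_coe_set_eq (SetLike.coe (Submodule.torsionBy ℤ
          ((W.map (Int.castRingHom ℚ))⁄(AlgebraicClosure ℚ)).Point ((5 : ℕ) : ℤ)))
    rw [h1]
    omega
  -- nontriviality
  obtain ⟨P₀, hP₀, hP₀5⟩ :=
    h29s51_exists_five ((W.map (Int.castRingHom ℚ))⁄(AlgebraicClosure ℚ)) hΔE
  have hnt : Nontrivial (Submodule.torsionBy ℤ
      ((W.map (Int.castRingHom ℚ))⁄(AlgebraicClosure ℚ)).Point ((5 : ℕ) : ℤ)) :=
    nontrivial_of_ne ⟨P₀, (hmem P₀).mpr hP₀5⟩ 0 (fun h0 => hP₀ (congrArg Subtype.val h0))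
  -- a stable line
  have h' : ¬ ∀ N : Submodule (ZMod 5) (Submodule.torsionBy ℤ
      ((W.map (Int.castRingHom ℚ))⁄(AlgebraicClosure ℚ)).Point ((5 : ℕ) : ℤ)),
      IsGaloisStable ℚ N → N = ⊥ ∨ N = ⊤ := fun hall => h ⟨hnt, hall⟩
  push Not at h'
  obtain ⟨N, hstab, hbot, htop⟩ := h'
  obtain ⟨⟨P, hPV⟩, hPN, hPne, hgen⟩ := h19s51_line 5 _ hcard N hbot htop
  have hP0 : P ≠ 0 := fun h0 => hPne (Subtype.ext h0)
  have hP5 : (5 : ℕ) • P = 0 := (hmem P).mp hPV
  obtain ⟨x₁, y₁, h₁, rfl⟩ := h29_exists_some _ hP0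
  obtain ⟨x₂, y₂, h₂, h2P, hne, rel₁, rel₂⟩ :=
    h29s51_five_data ((W.map (Int.castRingHom ℚ))⁄(AlgebraicClosure ℚ)) h₁ hP5
  -- Galois permutes `{x₁, x₂}`
  have hperm : ∀ σ : AlgebraicClosure ℚ ≃ₐ[ℚ] AlgebraicClosure ℚ,
      (σ x₁ = x₁ ∧ σ x₂ = x₂) ∨ (σ x₁ = x₂ ∧ σ x₂ = x₁) := by
    intro σ
    obtain ⟨k, hk⟩ := hgen _ (hstab σ _ hPN)
    have hk' : σ • (Point.some x₁ y₁ h₁ :
        ((W.map (Int.castRingHom ℚ))⁄(AlgebraicClosure ℚ)).Point) =
        k • Point.some x₁ y₁ h₁ := by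
      have h3 := congrArg Subtype.val hk
      simp only [Submodule.coe_smul_of_tower] at h3
      exact h3
    have := h19s51_perm σ _ hP0 hP5 k hk'
    rw [h2P] at this
    simpa only [h29_xi_some, sub_zero] using this
  have hsum : ∀ σ : AlgebraicClosure ℚ ≃ₐ[ℚ] AlgebraicClosure ℚ, σ (x₁ + x₂) = x₁ + x₂ := by
    intro σ
    rcases hperm σ with ⟨ha, hb⟩ | ⟨ha, hb⟩
    · rw [map_add, ha, hb]
    · rw [map_add, ha, hb, add_comm]
  have hprod : ∀ σ : AlgebraicClosure ℚ ≃ₐ[ℚ] AlgebraicClosure ℚ, σ (x₁ * x₂) = x₁ * x₂ := by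
    intro σ
    rcases hperm σ with ⟨ha, hb⟩ | ⟨ha, hb⟩
    · rw [map_mul, ha, hb]
    · rw [map_mul, ha, hb, mul_comm]
  haveI : Algebra.IsAlgebraic ℚ (AlgebraicClosure ℚ) := AlgebraicClosure.isAlgebraic ℚ
  haveI : IsAlgClosure ℚ (AlgebraicClosure ℚ) := ⟨inferInstance, inferInstance⟩
  obtain ⟨e₁, he₁⟩ := (InfiniteGalois.mem_range_algebraMap_iff_fixed (k := ℚ) (x₁ + x₂)).mpr hsum
  obtain ⟨e₂, he₂⟩ := (InfiniteGalois.mem_range_algebraMap_iff_fixed (k := ℚ) (x₁ * x₂)).mpr hprod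
  refine ⟨x₁, x₂, e₁, e₂, hne, he₁, he₂, ?_, ?_⟩
  · rw [Fermat.Agent.H2S51.h2s51_eval_Ψ₂Sq, Fermat.Agent.H2S51.h2s51_eval_Φ₂]
    exact rel₁
  · rw [Fermat.Agent.H2S51.h2s51_eval_Ψ₂Sq, Fermat.Agent.H2S51.h2s51_eval_Φ₂]
    exact rel₂

/-- **Red5**, combined with helper2's parametrisation: a reducible mod-5 representation gives
a rational parameter `s ≠ 0` with `c₄³ s = Δ (s² + 10 s + 5)³`. -/
theorem h19s51_red5 (W : WeierstrassCurve ℤ) (hΔ : W.Δ ≠ 0) (h : ¬ W.ModRepIsIrreducible 5) :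
    ∃ s : ℚ, s ≠ 0 ∧ (W.map (Int.castRingHom ℚ)).c₄ ^ 3 * s =
      (W.map (Int.castRingHom ℚ)).Δ * (s ^ 2 + 10 * s + 5) ^ 3 := by
  obtain ⟨x₁, x₂, e₁, e₂, hne, he₁, he₂, h₁₂, h₂₁⟩ := h19s51_line5 W hΔ h
  have hΔq : (W.map (Int.castRingHom ℚ)).Δ ≠ 0 := by
    rw [WeierstrassCurve.map_Δ]
    intro h1
    have h2 : ((W.Δ : ℤ) : ℚ) = 0 := h1
    exact hΔ (Int.cast_eq_zero.mp h2)
  exact Fermat.Agent.H2S51.h2s51_param5 (W.map (Int.castRingHom ℚ)) hΔq x₁ x₂ hne e₁ e₂ he₁ he₂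
    h₁₂ h₂₁

/-- integral form of `h19s51_red5` -/
theorem h19s51_red5_int (W : WeierstrassCurve ℤ) (hΔ : W.Δ ≠ 0) (h : ¬ W.ModRepIsIrreducible 5) :
    ∃ s : ℚ, s ≠ 0 ∧ (W.c₄ : ℚ) ^ 3 * s = (W.Δ : ℚ) * (s ^ 2 + 10 * s + 5) ^ 3 := by
  obtain ⟨s, hs, hrel⟩ := h19s51_red5 W hΔ h
  refine ⟨s, hs, ?_⟩
  rw [WeierstrassCurve.map_c₄, WeierstrassCurve.map_Δ] at hrel
  exact hrel

end Final

end Fermat.Agent.H3S51
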